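import Fermat.Prelude.Def_ModularCurve_HeckeModule
import Fermat.Prelude.Def_CuspForm_HeckeAlgebra

/-!
# Input data for the attached Galois representations

`TorsionHeckeModel N p` is what the eigenform representations (S29, S30, S42) need to know
about the `p`-power torsion of `J₀(N)` as a Hecke module: a lattice `ℤ^d` with integer
Hecke matrices, compatible identifications of `J₀(N)[pⁿ]` with its reductions, and an
injective intertwining map from weight two cusp forms (the periods).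
-/

set_option autoImplicit false

noncomputable section

namespace Fermat.Agent.EigenRep

open ModularCurve AlgebraicCurve

/-- The Hecke operator on `S₂(Γ₀(N))` attached to a prime: `T_ℓ` if `ℓ ∤ N`, else `U_ℓ`. -/
def formsOp (N : ℕ) [NeZero N] (ℓ : Nat.Primes) :
    Module.End ℂ (CuspForm (CongruenceSubgroup.Gamma0 N) 2) :=
  if h : (ℓ : ℕ) ∣ N then CuspForm.heckeULin 2 h else CuspForm.heckeTLin 2 ℓ.2 h

/-- Hecke-module model of the `p`-power torsion of `J₀(N)`. -/
structure TorsionHeckeModel (N p : ℕ) [NeZero N] where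
  /-- rank of the lattice -/
  d : ℕ
  /-- Hecke matrices on the lattice -/
  T : Nat.Primes → Matrix (Fin d) (Fin d) ℤ
  comm : ∀ ℓ ℓ', T ℓ * T ℓ' = T ℓ' * T ℓ
  /-- level `n` identification -/
  e : ∀ n : ℕ,
    Pic0.torsion (AlgebraicClosure ℚ) (modularFunctionFieldBar N) (p ^ n) ≃+
      (Fin d → ZMod (p ^ n))
  e_hecke : ∀ (n : ℕ) (ℓ : Nat.Primes)
      (x y : Pic0.torsion (AlgebraicClosure ℚ) (modularFunctionFieldBar N) (p ^ n)),
      (y : JZero N) = heckeOperatorBar N ℓ (x : JZero N) →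
      e n y = Matrix.mulVec ((T ℓ).map (Int.cast : ℤ → ZMod (p ^ n))) (e n x)
  e_compat : ∀ (n : ℕ)
      (x : Pic0.torsion (AlgebraicClosure ℚ) (modularFunctionFieldBar N) (p ^ (n + 1)))
      (y : Pic0.torsion (AlgebraicClosure ℚ) (modularFunctionFieldBar N) (p ^ n)),
      (y : JZero N) = p • (x : JZero N) →
      ∀ i, e n y i = ZMod.castHom (pow_dvd_pow p n.le_succ) (ZMod (p ^ n)) (e (n + 1) x i)
  /-- periods -/
  per : CuspForm (CongruenceSubgroup.Gamma0 N) 2 →ₗ[ℂ] (Fin d → ℂ)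
  per_injective : Function.Injective per
  per_hecke : ∀ (ℓ : Nat.Primes) (f : CuspForm (CongruenceSubgroup.Gamma0 N) 2),
    per (formsOp N ℓ f) = Matrix.mulVec ((T ℓ).map (Int.cast : ℤ → ℂ)) (per f)

/-- Galois equivariance of the Hecke operators on `J₀(N)`. -/
def HeckeGaloisEquivariant (N : ℕ) [NeZero N] : Prop :=
  ∀ (σ : AlgebraicClosure ℚ ≃ₐ[ℚ] AlgebraicClosure ℚ) (ℓ : Nat.Primes) (x : JZero N),
    heckeOperatorBar N ℓ (σ • x) = σ • heckeOperatorBar N ℓ x

/-- Every point of `J₀(N)` is fixed by the absolute Galois group of some number field. -/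
def JZeroSmooth (N : ℕ) [NeZero N] : Prop :=
  ∀ x : JZero N, ∃ L : IntermediateField ℚ (AlgebraicClosure ℚ), FiniteDimensional ℚ L ∧
    ∀ σ : AlgebraicClosure ℚ ≃ₐ[ℚ] AlgebraicClosure ℚ, (∀ a ∈ L, σ a = a) → σ • x = x

/-- Existence form of Chebotarev for the absolute Galois group of `ℚ`. -/
def FrobeniusDense : Prop :=
  ∀ (L : IntermediateField ℚ (AlgebraicClosure ℚ)), FiniteDimensional ℚ L →
    ∀ (g : AlgebraicClosure ℚ ≃ₐ[ℚ] AlgebraicClosure ℚ) (S : Finset ℕ),
      ∃ ℓ : ℕ, ℓ.Prime ∧ ℓ ∉ S ∧ ∃ A : ValuationSubring (AlgebraicClosure ℚ),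
        A.LiesOverPrime ℓ ∧ ∃ σ : AlgebraicClosure ℚ ≃ₐ[ℚ] AlgebraicClosure ℚ,
          A.IsFrobeniusAt σ ℓ ∧ ∀ a ∈ L, σ a = g a

end Fermat.Agent.EigenRep

end
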