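import Mathlib.RingTheory.Support
import Mathlib.RingTheory.LocalRing.Module
import Mathlib.RingTheory.LocalRing.ResidueField.Ideal
import Mathlib.Data.Matrix.Mul
import Mathlib.LinearAlgebra.Matrix.ToLin
import Mathlib.LinearAlgebra.Dual.Lemmas
import Mathlib.RingTheory.Adjoin.Basic
import Mathlib.Tactic

/-!
# Common eigenvectors for characters of commutative algebras of integer matrices

Every homomorphism from a commutative subalgebra of `M_d(ℤ)` to a field is realised by a
common eigenvector over that field.
-/

set_option autoImplicit false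

noncomputable section

namespace Fermat.Agent.EigenRep

open scoped TensorProduct

/-- A nonzero semilinear functional on a finite module whose annihilator is killed by `f`. -/
theorem exists_semilinear_functional {A : Type*} [CommRing A] {M : Type*} [AddCommGroup M]
    [Module A M] [Module.Finite A M] {E : Type*} [Field E] (f : A →+* E)
    (h : Module.annihilator A M ≤ RingHom.ker f) :
    ∃ g : M →+ E, g ≠ 0 ∧ ∀ (a : A) (m : M), g (a • m) = f a * g m := by
  let p : PrimeSpectrum A := ⟨RingHom.ker f, RingHom.ker_isPrime f⟩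
  have : p.asIdeal.IsPrime := p.isPrime
  let k := p.asIdeal.ResidueField
  have hp : p ∈ Module.support A M := by
    rw [Module.mem_support_iff_of_finite]; exact h
  have hnt : Nontrivial (k ⊗[A] M) :=
    (Module.mem_support_iff_nontrivial_residueField_tensorProduct p).mp hp
  obtain ⟨x, hx⟩ := exists_ne (0 : k ⊗[A] M)
  obtain ⟨φ, hφ⟩ : ∃ φ : Module.Dual k (k ⊗[A] M), φ x ≠ 0 := by
    by_contra hc
    push Not at hc
    exact hx ((Module.forall_dual_apply_eq_zero_iff k x).mp hc)
  have hinj : Function.Injective (Ideal.Quotient.lift p.asIdeal f (fun a ha => ha)) :=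
    RingHom.lift_injective_of_ker_le_ideal _ _ le_rfl
  let ι : k →+* E := IsFractionRing.lift (A := A ⧸ p.asIdeal) (K := k) hinj
  have hι : ∀ a : A, ι (algebraMap A k a) = f a := by
    intro a
    rw [IsScalarTower.algebraMap_apply A (A ⧸ p.asIdeal) k, IsFractionRing.lift_algebraMap]
    rfl
  let j : M →ₗ[A] k ⊗[A] M := TensorProduct.mk A k M 1
  refine ⟨ι.toAddMonoidHom.comp (φ.toAddMonoidHom.comp j.toAddMonoidHom), ?_, fun a m => ?_⟩
  · intro hzero
    have hz : ∀ m, φ (1 ⊗ₜ[A] m) = 0 := fun m => ι.injective <| by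
      rw [map_zero]; exact congr($hzero m)
    refine hφ ?_
    induction x using TensorProduct.induction_on with
    | zero => simp
    | tmul c m => rw [← mul_one c, ← smul_eq_mul, ← TensorProduct.smul_tmul', map_smul, hz, smul_zero]
    | add x y hx' hy' =>
        by_cases hx0 : φ x = 0
        · by_cases hy0 : φ y = 0
          · rw [map_add, hx0, hy0, add_zero]
          · exact absurd (hy' (fun h => hy0 (by rw [h, map_zero])) hy0) hy0
        · exact absurd (hx' (fun h => hx0 (by rw [h, map_zero])) hx0) hx0
  · show ι (φ (j (a • m))) = f a * ι (φ (j m))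
    rw [map_smul, ← algebraMap_smul k a (j m), map_smul, smul_eq_mul, map_mul, hι]

open Matrix

variable {d : ℕ} {ι : Type*}

/-- The algebra generated by a family of integer matrices. -/
abbrev matAlg (T : ι → Matrix (Fin d) (Fin d) ℤ) : Subalgebra ℤ (Matrix (Fin d) (Fin d) ℤ) :=
  Algebra.adjoin ℤ (Set.range T)

/-- The generator `T i` of `matAlg T`. -/
def matGen (T : ι → Matrix (Fin d) (Fin d) ℤ) (i : ι) : matAlg T :=
  ⟨T i, Algebra.subset_adjoin (Set.mem_range_self i)⟩

theorem mul_comm_matAlg {T : ι → Matrix (Fin d) (Fin d) ℤ}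
    (hc : ∀ i j, T i * T j = T j * T i) (a b : matAlg T) :
    (a : Matrix (Fin d) (Fin d) ℤ) * b = b * a := by
  have h := Algebra.isMulCommutative_adjoin ℤ (s := Set.range T)
    (by rintro _ ⟨i, rfl⟩ _ ⟨j, rfl⟩; exact hc i j)
  exact congrArg Subtype.val (h.is_comm.comm a b)

/-- The commutative ring structure on `matAlg T`. -/
@[reducible]
def matAlgCommRing {T : ι → Matrix (Fin d) (Fin d) ℤ}
    (hc : ∀ i j, T i * T j = T j * T i) : CommRing (matAlg T) :=
  { (inferInstance : Ring (matAlg T)) with
    mul_comm := fun a b => Subtype.ext (mul_comm_matAlg hc a b) }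

/-- The lattice `ℤ^d`, on which `matAlg T` acts through transposes. -/
def Lat (d : ℕ) : Type := Fin d → ℤ

instance (d : ℕ) : AddCommGroup (Lat d) := inferInstanceAs (AddCommGroup (Fin d → ℤ))

instance (d : ℕ) : Module.Finite ℤ (Lat d) := inferInstanceAs (Module.Finite ℤ (Fin d → ℤ))

/-- Every character of `matAlg T` with values in a field has an eigenvector. -/
theorem exists_common_eigenvector {T : ι → Matrix (Fin d) (Fin d) ℤ}
    (hc : ∀ i j, T i * T j = T j * T i) {E : Type*} [Field E] (f : matAlg T →+* E) :
    ∃ v : Fin d → E, v ≠ 0 ∧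
      ∀ i, (T i).map (Int.cast : ℤ → E) *ᵥ v = f (matGen T i) • v := by
  let := matAlgCommRing hc
  let act : matAlg T →+* Module.End ℤ (Fin d → ℤ) :=
    { toFun := fun a => (a : Matrix (Fin d) (Fin d) ℤ)ᵀ.mulVecLin
      map_one' := by simp [Module.End.one_eq_id]
      map_mul' := fun a b => by
        rw [Subalgebra.coe_mul, mul_comm_matAlg hc, Matrix.transpose_mul, Matrix.mulVecLin_mul]
        rfl
      map_zero' := by ext; simp
      map_add' := fun a b => by ext; simp }
  let act' : matAlg T →+* Module.End ℤ (Lat d) := act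
  let : Module (matAlg T) (Lat d) := Module.compHom _ act'
  let of : (Fin d → ℤ) → Lat d := id
  have hsmul : ∀ (a : matAlg T) (x : Fin d → ℤ),
      a • of x = of ((a : Matrix (Fin d) (Fin d) ℤ)ᵀ *ᵥ x) := fun a x => rfl
  have : IsScalarTower ℤ (matAlg T) (Lat d) := ⟨fun n a x => by
    show act (n • a) x = n • act a x
    rw [map_zsmul]; rfl⟩
  have : Module.Finite (matAlg T) (Lat d) := Module.Finite.of_restrictScalars_finite ℤ _ _
  have hann : Module.annihilator (matAlg T) (Lat d) ≤ RingHom.ker f := by
    intro a ha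
    rw [Module.mem_annihilator] at ha
    have : a = 0 := by
      apply Subtype.ext
      ext i j
      have := ha (of (Pi.single i 1))
      rw [hsmul] at this
      have hz := congrFun this j
      simpa [of, show ((0 : Lat d) : Fin d → ℤ) j = 0 from rfl] using hz
    simp [this]
  obtain ⟨g₀, hg0, hg⟩ := exists_semilinear_functional f hann
  let g : (Fin d → ℤ) →+ E := g₀
  refine ⟨fun i => g (Pi.single i 1), ?_, fun i => ?_⟩
  · intro h
    refine hg0 (AddMonoidHom.functions_ext E g 0 fun k n => ?_)
    have : (Pi.single k n : Fin d → ℤ) = n • Pi.single k 1 := by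
      ext j; simp [Pi.single_apply]
    rw [this, map_zsmul, show g (Pi.single k 1) = 0 from congrFun h k]
    simp
  · funext k
    show ∑ j, ((T i k j : E)) * g (Pi.single j 1) = f (matGen T i) * g₀ (of (Pi.single k 1))
    rw [← hg, hsmul]
    show _ = g ((T i)ᵀ *ᵥ Pi.single k 1)
    rw [pi_eq_sum_univ' ((T i)ᵀ *ᵥ Pi.single k 1), map_sum]
    exact Finset.sum_congr rfl fun j _ => by rw [map_zsmul, zsmul_eq_mul]; simp

end Fermat.Agent.EigenRep

end
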