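import Fermat.Agent.EigenRep.Interface
import Fermat.Agent.EigenRep.Eigenvector
import Fermat.Agent.HeckeEigen.Eigenform
import Fermat.Prelude.Def_FLTPrelim_ModularRep
import Mathlib.RingTheory.IntegralClosure.IntegrallyClosed

/-!
# From cusp forms to characters of the Hecke matrix algebra

The period map identifies the algebra generated by the Hecke matrices with the Hecke algebra of
cusp forms; an eigenform gives a character with algebraic integer values.
-/

set_option autoImplicit false

noncomputable section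

namespace Fermat.Agent.EigenRep

open Matrix

variable {N p : ℕ} [NeZero N] (M : TorsionHeckeModel N p)

/-- The Hecke matrices at primes outside `S`. -/
abbrev matFamily (S : Set ℕ) (ℓ : {ℓ : Nat.Primes // (ℓ : ℕ) ∉ S}) :
    Matrix (Fin M.d) (Fin M.d) ℤ :=
  M.T ℓ

theorem exists_formsOp_of_mem {S : Set ℕ} {m : Matrix (Fin M.d) (Fin M.d) ℤ}
    (hm : m ∈ matAlg (matFamily M S)) :
    ∃ t ∈ CuspForm.heckeAlgebra N 2 S, ∀ f, M.per (t f) = m.map (Int.cast : ℤ → ℂ) *ᵥ M.per f := by
  induction hm using Algebra.adjoin_induction with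
  | mem x hx =>
      obtain ⟨⟨ℓ, hℓ⟩, rfl⟩ := hx
      refine ⟨formsOp N ℓ, ?_, M.per_hecke ℓ⟩
      unfold formsOp
      split_ifs with h
      · exact CuspForm.heckeULin_mem_heckeAlgebra ℓ.2 h hℓ
      · exact CuspForm.heckeTLin_mem_heckeAlgebra ℓ.2 h hℓ
  | algebraMap r =>
      refine ⟨_, Subalgebra.algebraMap_mem _ r, fun f => ?_⟩
      rw [Module.algebraMap_end_apply, map_zsmul, Algebra.algebraMap_eq_smul_one,
        Matrix.smul_one_eq_diagonal, Matrix.diagonal_map Int.cast_zero]
      ext i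
      simp [mulVec_diagonal]
  | add x y _ _ hx hy =>
      obtain ⟨t, ht, h⟩ := hx
      obtain ⟨s, hs, k⟩ := hy
      exact ⟨t + s, add_mem ht hs, fun f => by
        rw [LinearMap.add_apply, map_add, h, k, Matrix.map_add _ Int.cast_add, add_mulVec]⟩
  | mul x y _ _ hx hy =>
      obtain ⟨t, ht, h⟩ := hx
      obtain ⟨s, hs, k⟩ := hy
      exact ⟨t * s, mul_mem ht hs, fun f => by
        rw [Module.End.mul_apply, h, k, mulVec_mulVec,
          Matrix.map_mul_intCast]⟩

theorem formsOp_unique {t t' : Module.End ℂ (CuspForm (CongruenceSubgroup.Gamma0 N) 2)}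
    (h : ∀ f, M.per (t f) = M.per (t' f)) : t = t' :=
  LinearMap.ext fun f => M.per_injective (h f)

/-- The operator on cusp forms with the same periods as a Hecke matrix. -/
def toFormsFun (S : Set ℕ) (m : matAlg (matFamily M S)) : CuspForm.heckeAlgebra N 2 S :=
  ⟨(exists_formsOp_of_mem M m.2).choose, (exists_formsOp_of_mem M m.2).choose_spec.1⟩

theorem per_toFormsFun {S : Set ℕ} (m : matAlg (matFamily M S))
    (f : CuspForm (CongruenceSubgroup.Gamma0 N) 2) :
    M.per ((toFormsFun M S m : Module.End ℂ (CuspForm (CongruenceSubgroup.Gamma0 N) 2)) f) =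
      (m : Matrix (Fin M.d) (Fin M.d) ℤ).map (Int.cast : ℤ → ℂ) *ᵥ M.per f :=
  (exists_formsOp_of_mem M m.2).choose_spec.2 f

/-- The map from the Hecke matrix algebra to the Hecke algebra of cusp forms. -/
def toForms (S : Set ℕ) : matAlg (matFamily M S) →+* CuspForm.heckeAlgebra N 2 S where
  toFun := toFormsFun M S
  map_one' := Subtype.ext <| formsOp_unique M fun f => by
    rw [per_toFormsFun, OneMemClass.coe_one, OneMemClass.coe_one, Module.End.one_apply,
      Matrix.map_one _ Int.cast_zero Int.cast_one, one_mulVec]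
  map_zero' := Subtype.ext <| formsOp_unique M fun f => by
    rw [per_toFormsFun, ZeroMemClass.coe_zero, ZeroMemClass.coe_zero, LinearMap.zero_apply,
      map_zero, Matrix.map_zero _ Int.cast_zero, zero_mulVec]
  map_add' m m' := Subtype.ext <| formsOp_unique M fun f => by
    rw [per_toFormsFun, Subalgebra.coe_add, Subalgebra.coe_add, LinearMap.add_apply,
      map_add, per_toFormsFun, per_toFormsFun, Matrix.map_add _ Int.cast_add, add_mulVec]
  map_mul' m m' := Subtype.ext <| formsOp_unique M fun f => by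
    rw [per_toFormsFun, Subalgebra.coe_mul, Subalgebra.coe_mul, Matrix.map_mul_intCast,
      Module.End.mul_apply, per_toFormsFun, per_toFormsFun, mulVec_mulVec]

theorem toForms_T {S : Set ℕ} {ℓ : ℕ} (hℓ : ℓ.Prime) (hℓN : ¬ ℓ ∣ N) (hℓS : ℓ ∉ S) :
    toForms M S (matGen (matFamily M S) ⟨⟨ℓ, hℓ⟩, hℓS⟩) =
      CuspForm.heckeAlgebra.T hℓ hℓN hℓS := by
  refine Subtype.ext <| formsOp_unique M fun f => ?_
  show M.per ((toFormsFun M S _ : Module.End ℂ _) f) = _
  rw [per_toFormsFun]
  have := M.per_hecke ⟨ℓ, hℓ⟩ f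
  simp only [formsOp, dif_neg hℓN] at this
  exact this.symm

theorem exists_eigenHom {g : CuspForm (CongruenceSubgroup.Gamma0 N) 2}
    (hg : g.IsNormalizedEigenform) :
    ∃ f : matAlg (matFamily M (∅ : Set ℕ)) →+* integralClosure ℤ ℂ,
      ∀ ℓ, (f (matGen _ ℓ) : ℂ) = ModularFormClass.qCoeff g (ℓ.1 : ℕ) := by
  have hv : M.per g ≠ 0 := fun h => hg.ne_zero (M.per_injective (h.trans (map_zero _).symm))
  have hex : ∀ m : matAlg (matFamily M (∅ : Set ℕ)), ∃ c : ℂ,
      (m : Matrix (Fin M.d) (Fin M.d) ℤ).map (Int.cast : ℤ → ℂ) *ᵥ M.per g = c • M.per g := by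
    intro m
    refine ⟨HeckeEigen.eigenHom hg (toForms M ∅ m), ?_⟩
    rw [← per_toFormsFun, ← map_smul]
    congr 1
    exact HeckeEigen.apply_eq_pairOne_smul_of_isNormalizedEigenform hg (toForms M ∅ m)
  choose c hc using hex
  have huniq : ∀ {x y : ℂ}, x • M.per g = y • M.per g → x = y := fun h =>
    smul_left_injective ℂ hv h
  let c' : matAlg (matFamily M (∅ : Set ℕ)) →+* ℂ :=
    { toFun := c
      map_one' := huniq <| by rw [← hc]; simp [Matrix.map_one]
      map_zero' := huniq <| by rw [← hc]; simp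
      map_add' := fun m m' => huniq <| by
        rw [← hc, add_smul, ← hc, ← hc, Subalgebra.coe_add, Matrix.map_add _ Int.cast_add,
          add_mulVec]
      map_mul' := fun m m' => huniq <| by
        rw [← hc, Subalgebra.coe_mul, Matrix.map_mul_intCast, ← mulVec_mulVec, hc, mulVec_smul,
          hc, smul_smul, mul_comm] }
  have : Module.Finite ℤ (matAlg (matFamily M (∅ : Set ℕ))) :=
    Module.Finite.of_injective (matAlg (matFamily M (∅ : Set ℕ))).val.toLinearMap
      Subtype.val_injective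
  have hint : ∀ m, c' m ∈ integralClosure ℤ ℂ := fun m =>
    map_isIntegral_int c' (IsIntegral.of_finite ℤ m)
  refine ⟨c'.codRestrict (integralClosure ℤ ℂ).toSubring hint, fun ⟨ℓ, hℓ⟩ => huniq ?_⟩
  show c (matGen _ _) • _ = _
  rw [← hc, ← map_smul]
  show (M.T ℓ).map (Int.cast : ℤ → ℂ) *ᵥ M.per g = _
  rw [← M.per_hecke]
  congr 1
  unfold formsOp
  split_ifs with h
  · exact HeckeEigen.heckeULin_apply_of_isNormalizedEigenform hg ℓ.2 h
  · exact HeckeEigen.heckeTLin_apply_of_isNormalizedEigenform hg ℓ.2 h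

end Fermat.Agent.EigenRep

end
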