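import Fermat.Agent.EigenRep.RankTwo
import Mathlib.LinearAlgebra.FreeModule.PID
import Mathlib.LinearAlgebra.LinearIndependent.BaseChange
import Mathlib.LinearAlgebra.Charpoly.ToMatrix
import Mathlib.RingTheory.PrincipalIdealDomain

/-!
# Lattices in stable subspaces

For matrices over a principal ideal domain `R` and a stable subspace of `L^d` spanned by vectors
of `R^d`, the saturated lattice gives an integral matrix representation.
-/

set_option autoImplicit false

noncomputable section

namespace Fermat.Agent.EigenRep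

open Matrix Polynomial Module

variable {G : Type*} [Group G] {d : ℕ} {R : Type*} [CommRing R] [IsDomain R]
  [IsPrincipalIdealRing R] {L : Type*} [Field L] [Algebra R L] [FaithfulSMul R L]

variable (R L d) in
/-- The map `R^d → L^d`. -/
abbrev embVec : (Fin d → R) →ₗ[R] (Fin d → L) :=
  LinearMap.compLeft (Algebra.linearMap R L) (Fin d)

omit [IsDomain R] [IsPrincipalIdealRing R] [FaithfulSMul R L] in
theorem embVec_mulVec (A : Matrix (Fin d) (Fin d) R) (x : Fin d → R) :
    embVec d R L (A *ᵥ x) = A.map (algebraMap R L) *ᵥ embVec d R L x := by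
  funext i
  exact RingHom.map_mulVec (algebraMap R L) A x i

/-- A stable subspace gives an integral representation of the same rank. -/
theorem exists_lattice_rep (A : G →* Matrix (Fin d) (Fin d) R) (W : Submodule L (Fin d → L))
    (hW : ∀ g, ∀ w ∈ W, (A g).map (algebraMap R L) *ᵥ w ∈ W)
    (hspan : W ≤ Submodule.span L (embVec d R L '' {x | embVec d R L x ∈ W})) :
    ∃ r : G →* Matrix (Fin (finrank L W)) (Fin (finrank L W)) R,
      (∀ g, (r g).charpoly.map (algebraMap R L) =
        LinearMap.charpoly (((A g).map (algebraMap R L)).mulVecLin.restrict (hW g))) ∧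
      ∀ g (c : R) (B : Matrix (Fin d) (Fin d) R), A g = 1 + c • B →
        ∃ C, r g = 1 + c • C := by
  let Λ : Submodule R (Fin d → R) := (W.restrictScalars R).comap (embVec d R L)
  have hΛ : ∀ g, ∀ x ∈ Λ, A g *ᵥ x ∈ Λ := fun g x hx => by
    show embVec d R L (A g *ᵥ x) ∈ W
    rw [embVec_mulVec]
    exact hW g _ hx
  obtain ⟨n, b⟩ := Submodule.basisOfPid (Pi.basisFun R (Fin d)) Λ
  let v : Fin n → W := fun i => ⟨embVec d R L (b i : Fin d → R), (b i).2⟩
  have hind : LinearIndependent L v := by
    refine LinearIndependent.of_comp W.subtype ?_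
    have := b.linearIndependent.map' Λ.subtype Λ.ker_subtype
    exact linearIndependent_algebraMap_comp_iff.mpr this
  have hsp : ⊤ ≤ Submodule.span L (Set.range v) := by
    rintro ⟨w, hw⟩ -
    have : w ∈ Submodule.span L (W.subtype '' Set.range v) := by
      refine Submodule.span_le.mpr ?_ (hspan hw)
      rintro _ ⟨x, hx, rfl⟩
      have hbx := b.sum_repr ⟨x, hx⟩
      have : embVec d R L x = ∑ i, (algebraMap R L (b.repr ⟨x, hx⟩ i)) • (v i : Fin d → L) := by
        conv_lhs => rw [show x = ((⟨x, hx⟩ : Λ) : Fin d → R) from rfl, ← hbx]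
        rw [AddSubmonoidClass.coe_finsetSum, map_sum]
        refine Finset.sum_congr rfl fun i _ => ?_
        rw [Submodule.coe_smul, map_smul, algebraMap_smul]
      rw [SetLike.mem_coe, this]
      exact Submodule.sum_mem _ fun i _ =>
        Submodule.smul_mem _ _ (Submodule.subset_span ⟨v i, ⟨i, rfl⟩, rfl⟩)
    rw [← Submodule.map_span, Submodule.mem_map] at this
    obtain ⟨y, hy, hyw⟩ := this
    exact (Subtype.ext hyw : y = ⟨w, hw⟩) ▸ hy
  let bW : Basis (Fin n) L W := Basis.mk hind hsp
  obtain rfl : n = finrank L W := by rw [finrank_eq_card_basis bW, Fintype.card_fin]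
  let AΛ : G →* Module.End R Λ :=
    { toFun := fun g => (A g).mulVecLin.restrict (hΛ g)
      map_one' := by ext x; simp
      map_mul' := fun g k => by
        ext x : 2
        show A (g * k) *ᵥ (x : Fin d → R) = A g *ᵥ (A k *ᵥ (x : Fin d → R))
        rw [map_mul, mulVec_mulVec] }
  refine ⟨(LinearMap.toMatrixAlgEquiv b).toAlgHom.toMonoidHom.comp AΛ, fun g => ?_,
    fun g c B hB => ?_⟩
  · have hmat : LinearMap.toMatrix bW bW (((A g).map (algebraMap R L)).mulVecLin.restrict (hW g)) =
        (LinearMap.toMatrix b b (AΛ g)).map (algebraMap R L) := by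
      ext i j
      rw [Matrix.map_apply, LinearMap.toMatrix_apply, LinearMap.toMatrix_apply]
      have hexp : ((A g).map (algebraMap R L)).mulVecLin.restrict (hW g) (bW j) =
          ∑ k, algebraMap R L (b.repr (AΛ g (b j)) k) • bW k := by
        apply Subtype.ext
        simp only [bW, Basis.mk_apply, Submodule.coe_sum, algebraMap_smul]
        show (A g).map (algebraMap R L) *ᵥ embVec d R L (b j : Fin d → R) = _
        rw [← embVec_mulVec,
          show A g *ᵥ (b j : Fin d → R) = ((AΛ g (b j) : Λ) : Fin d → R) from rfl]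
        conv_lhs => rw [← b.sum_repr (AΛ g (b j))]
        rw [AddSubmonoidClass.coe_finsetSum, map_sum]
        exact Finset.sum_congr rfl fun k _ => by rw [Submodule.coe_smul, map_smul]; rfl
      rw [hexp, bW.repr_sum_self]
    rw [← LinearMap.charpoly_toMatrix _ bW, hmat, Matrix.charpoly_map]
    rfl
  · rcases eq_or_ne c 0 with rfl | hc
    · refine ⟨0, ?_⟩
      have : AΛ g = 1 := by ext x; simp [AΛ, hB]
      simp [this]
    · have hBΛ : ∀ x ∈ Λ, B *ᵥ x ∈ Λ := by
        intro x hx
        have h1 := Λ.sub_mem (hΛ g x hx) hx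
        rw [hB, add_mulVec, one_mulVec, add_sub_cancel_left, smul_mulVec] at h1
        have h2 : algebraMap R L c • embVec d R L (B *ᵥ x) ∈ W := by
          rw [algebraMap_smul, ← map_smul]; exact h1
        have hc' : algebraMap R L c ≠ 0 := by
          simpa using (FaithfulSMul.algebraMap_injective R L).ne hc
        have := W.smul_mem (algebraMap R L c)⁻¹ h2
        rwa [smul_smul, inv_mul_cancel₀ hc', one_smul] at this
      refine ⟨LinearMap.toMatrixAlgEquiv b (B.mulVecLin.restrict hBΛ), ?_⟩
      have : AΛ g = 1 + c • B.mulVecLin.restrict hBΛ := by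
        ext x : 2
        show A g *ᵥ (x : Fin d → R) = x + c • (B *ᵥ (x : Fin d → R))
        rw [hB, add_mulVec, one_mulVec, smul_mulVec]
      simp [this]

theorem diagRep_congr {S : Type*} [CommRing S] (ψ ε : G →* Sˣ) {g : G} {c a e : S}
    (hψ : (ψ g : S) = 1 + c * a) (hε : (ε g : S) = 1 + c * e) :
    ∃ C, diagRep ψ ε g = 1 + c • C := by
  have h2 : ((ε g * (ψ g)⁻¹ : Sˣ) : S) = 1 + c * ((e - a) * ((ψ g)⁻¹ : Sˣ)) := by
    have h := (ψ g).mul_inv
    rw [Units.val_mul, hε]
    linear_combination h - (((ψ g)⁻¹ : Sˣ) : S) * hψ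
  refine ⟨Matrix.diagonal ![a, (e - a) * ((ψ g)⁻¹ : Sˣ)], ?_⟩
  show Matrix.diagonal ![(ψ g : S), _] = _
  rw [h2, hψ, ← Matrix.diagonal_smul, ← Matrix.diagonal_one, Matrix.diagonal_add]
  congr 1
  ext i
  fin_cases i <;> simp

/-- An integral version of `exists_rankTwo`, on a stable subspace spanned by integral vectors. -/
theorem exists_integral_rankTwo (A : G →* Matrix (Fin d) (Fin d) R) (ε : G →* Rˣ) (t : G → R)
    (W : Submodule L (Fin d → L))
    (hW : ∀ g, ∀ w ∈ W, (A g).map (algebraMap R L) *ᵥ w ∈ W)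
    (hspan : W ≤ Submodule.span L (embVec d R L '' {x | embVec d R L x ∈ W}))
    (hcase : (finrank L W = 1 ∧ ∀ g, ∀ w ∈ W, (A g).map (algebraMap R L) *ᵥ
        ((A g).map (algebraMap R L) *ᵥ w) - algebraMap R L (t g) •
        ((A g).map (algebraMap R L) *ᵥ w) + algebraMap R L (ε g : R) • w = 0) ∨
      (finrank L W = 2 ∧ ∀ g, LinearMap.charpoly
        (((A g).map (algebraMap R L)).mulVecLin.restrict (hW g)) =
          X ^ 2 - C (algebraMap R L (t g)) * X + C (algebraMap R L (ε g : R)))) :
    ∃ r : G →* Matrix (Fin 2) (Fin 2) R,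
      (∀ g, (r g).charpoly = X ^ 2 - C (t g) * X + C (ε g : R)) ∧
      ∀ g (c : R), (∃ B, A g = 1 + c • B) → (∃ e, (ε g : R) = 1 + c * e) →
        ∃ C, r g = 1 + c • C := by
  obtain ⟨r, hr, hrc⟩ := exists_lattice_rep A W hW hspan
  have hinj : Function.Injective (algebraMap R L) := FaithfulSMul.algebraMap_injective R L
  rcases hcase with ⟨h1, hrel⟩ | ⟨h2, hcp⟩
  · let i0 : Fin (finrank L W) := ⟨0, by omega⟩
    have huniq : ∀ i : Fin (finrank L W), i = i0 := fun i => Fin.ext (by have := i.2; simp only [i0]; omega)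
    let ψ : G →* Rˣ := MonoidHom.toHomUnits
      { toFun := fun g => r g i0 i0
        map_one' := by rw [map_one, Matrix.one_apply_eq]
        map_mul' := fun g k => by
          rw [map_mul, Matrix.mul_apply, Finset.sum_eq_single i0 (fun j _ hj => absurd (huniq j) hj)
            (fun h => absurd (Finset.mem_univ _) h)] }
    refine ⟨diagRep ψ ε, fun g => ?_, fun g c ⟨B, hB⟩ ⟨e, he⟩ => ?_⟩
    · rw [charpoly_diagRep]
      suffices (ψ g : R) + ((ε g * (ψ g)⁻¹ : Rˣ) : R) = t g by rw [this]
      have hroot : (r g).charpoly = X - C (ψ g : R) := by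
        rw [Matrix.charpoly, Matrix.det_eq_elem_of_card_eq_one (by simpa using h1) i0,
          Matrix.charmatrix_apply_eq]
        rfl
      let f := ((A g).map (algebraMap R L)).mulVecLin.restrict (hW g)
      have hf : f = algebraMap R L (ψ g : R) • 1 := by
        have := LinearMap.aeval_self_charpoly f
        rw [← hr g, hroot, Polynomial.map_sub, Polynomial.map_X, Polynomial.map_C, map_sub, aeval_X,
          aeval_C, sub_eq_zero] at this
        rw [this, Algebra.algebraMap_eq_smul_one]
      have : Nontrivial W := Module.nontrivial_of_finrank_pos (R := L) (by omega)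
      obtain ⟨w, hw⟩ := exists_ne (0 : W)
      have hfw : (A g).map (algebraMap R L) *ᵥ (w : Fin d → L) =
          algebraMap R L (ψ g : R) • (w : Fin d → L) := congr(($hf w : W).1)
      have h0 := hrel g w w.2
      rw [hfw, mulVec_smul, hfw, smul_smul, smul_smul, ← sub_smul, ← add_smul, smul_eq_zero] at h0
      have h0' := h0.resolve_right (fun h => hw (Subtype.ext h))
      rw [← map_mul, ← map_mul, ← map_sub, ← map_add, ← map_zero (algebraMap R L)] at h0'
      have h := hinj h0'
      have hinv := (ψ g).mul_inv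
      rw [Units.val_mul]
      linear_combination (((ψ g)⁻¹ : Rˣ) : R) * h + (t g - (ψ g : R)) * hinv
    · obtain ⟨C, hC⟩ := hrc g c B hB
      refine diagRep_congr ψ ε (a := C i0 i0) ?_ he
      show r g i0 i0 = _
      rw [hC, Matrix.add_apply, Matrix.one_apply_eq, Matrix.smul_apply, smul_eq_mul]
  · revert r
    rw [h2]
    intro r hr hrc
    refine ⟨r, fun g => Polynomial.map_injective _ hinj ?_, fun g c ⟨B, hB⟩ _ => hrc g c B hB⟩
    rw [hr g, hcp g]
    simp

end Fermat.Agent.EigenRep

end
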