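import Fermat.Agent.EigenRep.TwoDim

/-!
# A two-dimensional representation out of a quadratic relation

Over an algebraically closed field, a nonzero representation satisfying
`ρ(g)² - t(g) ρ(g) + ε(g) = 0` yields a homomorphism to `M₂` with the characteristic
polynomials `X² - t(g) X + ε(g)`.
-/

set_option autoImplicit false

noncomputable section

namespace Fermat.Agent.EigenRep

open Module Polynomial Matrix

variable {G : Type*} [Group G] {K : Type*} [Field K] {V : Type*} [AddCommGroup V] [Module K V]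

/-- The character on a stable line. -/
def lineChar (ρ : G →* Module.End K V) {v : V} (hv : v ≠ 0) (h : ∀ g, ∃ c : K, ρ g v = c • v) :
    G →* Kˣ :=
  MonoidHom.toHomUnits
    { toFun := fun g => (h g).choose
      map_one' := smul_left_injective K hv <| show _ • v = (1 : K) • v by
        rw [← (h 1).choose_spec, one_smul, map_one, Module.End.one_apply]
      map_mul' := fun g k => smul_left_injective K hv <| show _ • v = (_ * _ : K) • v by
        have e1 := (h (g * k)).choose_spec
        have e2 := (h g).choose_spec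
        have e3 := (h k).choose_spec
        generalize (h (g * k)).choose = c1 at e1 ⊢
        generalize (h g).choose = c2 at e2 ⊢
        generalize (h k).choose = c3 at e3 ⊢
        rw [← e1, map_mul, Module.End.mul_apply, e3, map_smul, e2, smul_smul, mul_comm] }

theorem lineChar_spec (ρ : G →* Module.End K V) {v : V} (hv : v ≠ 0)
    (h : ∀ g, ∃ c : K, ρ g v = c • v) (g : G) : ρ g v = (lineChar ρ hv h g : K) • v :=
  (h g).choose_spec

/-- The diagonal representation `ψ ⊕ εψ⁻¹`. -/
def diagRep {R : Type*} [CommRing R] (ψ ε : G →* Rˣ) : G →* Matrix (Fin 2) (Fin 2) R where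
  toFun g := Matrix.diagonal ![(ψ g : R), ((ε g * (ψ g)⁻¹ : Rˣ) : R)]
  map_one' := by
    ext i j; fin_cases i <;> fin_cases j <;> simp
  map_mul' g k := by
    rw [diagonal_mul_diagonal]
    congr 1
    ext i
    fin_cases i <;> simp [_root_.mul_inv_rev]
    ring

theorem diagRep_eq_one {R : Type*} [CommRing R] (ψ ε : G →* Rˣ) {g : G} (hψ : ψ g = 1)
    (hε : ε g = 1) : diagRep ψ ε g = 1 := by
  ext i j; fin_cases i <;> fin_cases j <;> simp [diagRep, hψ, hε]

theorem charpoly_diagRep {R : Type*} [CommRing R] [Nontrivial R] (ψ ε : G →* Rˣ) (g : G) :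
    (diagRep ψ ε g).charpoly =
      X ^ 2 - C ((ψ g : R) + ((ε g * (ψ g)⁻¹ : Rˣ) : R)) * X + C (ε g : R) := by
  rw [Matrix.charpoly_fin_two, Matrix.trace_fin_two, Matrix.det_fin_two]
  simp [diagRep, ← mul_assoc, mul_comm (ψ g : R) (ε g : R)]

/-- The trace of the stable line: `t = ψ + ε ψ⁻¹`. -/
theorem t_eq_of_line (ρ : G →* Module.End K V) (ε : G →* Kˣ) (t : G → K)
    (h : ∀ g, ρ g * ρ g - t g • ρ g + (ε g : K) • 1 = 0) {v : V} (hv : v ≠ 0)
    (ψ : G →* Kˣ) (hψ : ∀ g, ρ g v = (ψ g : K) • v) (g : G) :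
    t g = (ψ g : K) + ((ε g * (ψ g)⁻¹ : Kˣ) : K) := by
  have h1 : ((ψ g : K) * (ψ g : K) - t g * (ψ g : K) + (ε g : K)) • v = 0 := by
    have := congr($(h g) v)
    simpa [Module.End.mul_apply, hψ g, smul_smul, add_smul, sub_smul] using this
  have h2 := (smul_eq_zero.mp h1).resolve_right hv
  have hne : (ψ g : K) ≠ 0 := (ψ g).ne_zero
  rw [Units.val_mul, Units.val_inv_eq_inv_val]
  field_simp
  linear_combination -h2

/-- A nonzero representation with a quadratic relation gives a two-dimensional one. -/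
theorem exists_rankTwo [IsAlgClosed K] [FiniteDimensional K V] [Nontrivial V]
    (ρ : G →* Module.End K V) (ε : G →* Kˣ) (t : G → K)
    (h : ∀ g, ρ g * ρ g - t g • ρ g + (ε g : K) • 1 = 0) :
    ∃ r : G →* Matrix (Fin 2) (Fin 2) K,
      (∀ g, (r g).charpoly = X ^ 2 - C (t g) * X + C (ε g : K)) ∧
      ∀ g, ρ g = 1 → ε g = 1 → r g = 1 := by
  rcases exists_line_or_plane ρ ε t h with ⟨v, hv, hline⟩ | ⟨W, hW2, hW, hcp⟩
  · let ψ := lineChar ρ hv hline
    have hψ : ∀ g, ρ g v = (ψ g : K) • v := lineChar_spec ρ hv hline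
    refine ⟨diagRep ψ ε, fun g => ?_, fun g hg hε => diagRep_eq_one ψ ε ?_ hε⟩
    · rw [charpoly_diagRep, t_eq_of_line ρ ε t h hv ψ hψ g]
    · refine Units.ext (smul_left_injective K hv (?_ : _ • v = _ • v))
      rw [← hψ, hg, Units.val_one, one_smul, Module.End.one_apply]
  · let b := Module.finBasisOfFinrankEq K W hW2
    let ρW : G →* Module.End K W :=
      { toFun := fun g => (ρ g).restrict (hW g)
        map_one' := by ext x; simp
        map_mul' := fun g k => by ext x; simp }
    refine ⟨(LinearMap.toMatrixAlgEquiv b).toAlgHom.toMonoidHom.comp ρW, fun g => ?_,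
      fun g hg _ => ?_⟩
    · exact (LinearMap.charpoly_toMatrix (ρW g) b).trans (hcp g)
    · have : ρW g = 1 := by
        ext x
        exact congr($hg (x : V))
      simp [this]

end Fermat.Agent.EigenRep

end
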