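import Fermat.Agent.EigenRep.EigenSpace
import Fermat.Agent.EigenRep.RankTwo
import Fermat.Prelude.Def_GaloisRep_Residual
import Mathlib.LinearAlgebra.Charpoly.BaseChange

/-!
# Residual representations attached to characters of the Hecke matrix algebra
-/

set_option autoImplicit false

noncomputable section

namespace Fermat.Agent.EigenRep

open ModularCurve Matrix Polynomial

local notation "Qbar" => AlgebraicClosure ℚ

variable {N p : ℕ} [NeZero N] [Fact p.Prime] {K : Type} [Field K] [CharP K p]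

omit [NeZero N] in
/-- In characteristic `p` a ring map from `ℤ_p` only depends on the residue. -/
theorem map_eq_of_toZModPow_one (ι : ℤ_[p] →+* K) {x y : ℤ_[p]}
    (h : PadicInt.toZModPow 1 x = PadicInt.toZModPow 1 y) : ι x = ι y := by
  rw [← RingHom.sub_mem_ker_iff, PadicInt.ker_toZModPow, Ideal.mem_span_singleton, pow_one] at h
  obtain ⟨c, hc⟩ := h
  rw [← sub_eq_zero, ← map_sub, hc, map_mul, map_natCast, CharP.cast_eq_zero, zero_mul]

omit [NeZero N] in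
theorem map_eq_of_matMod_one {d : ℕ} (ι : ℤ_[p] →+* K) {x y : Matrix (Fin d) (Fin d) ℤ_[p]}
    (h : matMod p d 1 x = matMod p d 1 y) : x.map ι = y.map ι := by
  ext i j
  exact map_eq_of_toZModPow_one ι congr($h i j)

omit [NeZero N] in
/-- `ℤ_p → K` for a field of characteristic `p`. -/
def toCharP (p : ℕ) [Fact p.Prime] (K : Type) [Field K] [CharP K p] : ℤ_[p] →+* K :=
  (ZMod.castHom dvd_rfl K).comp PadicInt.toZMod

omit [Fact p.Prime] in
theorem exists_eigenvector_family (I : RepInputs N p) {E : Type} [Field E] (S : Set ℕ)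
    (f : matAlg (fun ℓ : {ℓ : Nat.Primes // (ℓ : ℕ) ∉ S} => I.model.T ℓ) →+* E)
    (a : Nat.Primes → E)
    (ha : ∀ ℓ, a ℓ.1 = f (matGen (fun ℓ : {ℓ : Nat.Primes // (ℓ : ℕ) ∉ S} => I.model.T ℓ) ℓ)) :
    ∃ v, v ≠ 0 ∧ v ∈ eigenSub I.model S a := by
  obtain ⟨v, hv, hev⟩ := exists_common_eigenvector (fun i j => I.model.comm i.1 j.1) f
  refine ⟨v, hv, (mem_eigenSub I.model).mpr fun ℓ hℓ => ?_⟩
  rw [ha ⟨ℓ, hℓ⟩]
  exact hev ⟨ℓ, hℓ⟩

/-- The attached residual representation, from an eigenvector modulo `p`. -/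
theorem exists_residual_of_eigenvector [IsAlgClosed K] (I : RepInputs N p) (S : Finset ℕ)
    (a : Nat.Primes → K) (hne : ∃ v, v ≠ 0 ∧ v ∈ eigenSub I.model (↑S : Set ℕ) a) :
    ∃ ρ : ResidualGaloisRep K,
      (∀ (ℓ : ℕ) (hℓ : ℓ.Prime), ℓ ∉ S → ¬ ℓ ∣ N * p → ∀ A : ValuationSubring Qbar,
        A.LiesOverPrime ℓ → ∀ σ : Qbar ≃ₐ[ℚ] Qbar, A.IsFrobeniusAt σ ℓ →
          LinearMap.charpoly (ρ.ρ σ) = X ^ 2 - C (a ⟨ℓ, hℓ⟩) * X + C (ℓ : K)) ∧
      ∀ q : ℕ, q.Prime → ¬ q ∣ N * p → ρ.IsUnramifiedAt q := by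
  let ι := toCharP p K
  let V := eigenSub I.model (↑S : Set ℕ) a
  obtain ⟨v₀, hv₀, hv₀V⟩ := hne
  have : Nontrivial V := ⟨⟨v₀, hv₀V⟩, 0, fun h => hv₀ (congrArg Subtype.val h)⟩
  let ρ : (Qbar ≃ₐ[ℚ] Qbar) →* Module.End K V :=
    { toFun := fun g => (galEnd I.model ι g).restrict
        fun v hv => galEnd_mem_eigenSub I.model ι I.equivariant g hv
      map_one' := by ext v; simp
      map_mul' := fun g k => by ext v; simp }
  let ε : (Qbar ≃ₐ[ℚ] Qbar) →* Kˣ := (Units.map ι.toMonoidHom).comp (epsilonPadic p)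
  have hεfrob : ∀ {ℓ : ℕ} (hℓ : ℓ.Prime), ¬ ℓ ∣ N * p → ∀ {A : ValuationSubring Qbar},
      A.LiesOverPrime ℓ → ∀ {σ : Qbar ≃ₐ[ℚ] Qbar}, A.IsFrobeniusAt σ ℓ → (ε σ : K) = ℓ := by
    intro ℓ hℓ hd A hA σ hσ
    show ι _ = _
    rw [epsilon_frobenius hℓ (fun h => hd (h ▸ dvd_mul_left p N)) hA hσ, map_natCast]
  have hfrob : ∀ {ℓ : ℕ} (hℓ : ℓ.Prime), ℓ ∉ S → ¬ ℓ ∣ N * p → ∀ {A : ValuationSubring Qbar},
      A.LiesOverPrime ℓ → ∀ {σ : Qbar ≃ₐ[ℚ] Qbar}, A.IsFrobeniusAt σ ℓ →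
        ρ σ * ρ σ - a ⟨ℓ, hℓ⟩ • ρ σ + (ε σ : K) • 1 = 0 := by
    intro ℓ hℓ hS hd A hA σ hσ
    ext v
    have := congrFun (galEnd_frobenius I.model ι I.es I.equivariant hℓ (by simpa using hS) hd hA hσ
      v.2)
    simpa [ρ, hεfrob hℓ hd hA hσ] using! this _
  have hcongr : ∀ {g σ : Qbar ≃ₐ[ℚ] Qbar},
      matMod p I.model.d 1 (galMat I.model g) = matMod p I.model.d 1 (galMat I.model σ) →
      ρ g = ρ σ := by
    intro g σ h
    ext v : 2
    show galEnd I.model ι g v = galEnd I.model ι σ v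
    rw [galEnd_apply, galEnd_apply, map_eq_of_matMod_one ι h]
  have hεcongr : ∀ {g σ : Qbar ≃ₐ[ℚ] Qbar},
      PadicInt.toZModPow 1 (epsilonPadic p g : ℤ_[p]) =
        PadicInt.toZModPow 1 (epsilonPadic p σ : ℤ_[p]) → ε g = ε σ :=
    fun h => Units.ext (map_eq_of_toZModPow_one ι h)
  have hrel : ∀ g, ∃ t : K, ρ g * ρ g - t • ρ g + (ε g : K) • 1 = 0 := by
    intro g
    obtain ⟨ℓ, hℓ, hS, hd, A, hA, σ, hσ, h1, h2⟩ := exists_frobenius_congr I 1 g S
    exact ⟨a ⟨ℓ, hℓ⟩, by rw [hcongr h1, hεcongr h2]; exact hfrob hℓ hS hd hA hσ⟩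
  choose t ht using hrel
  obtain ⟨r, hr, hr1⟩ := exists_rankTwo ρ ε t ht
  obtain ⟨L, hL, hLfix⟩ := exists_level I 1
  refine ⟨{ V := Fin 2 → K, finrank_eq := by simp,
            ρ := (Matrix.toLinAlgEquiv' : _ ≃ₐ[K] _).toAlgHom.toMonoidHom.comp r,
            factorsThroughFiniteLevel := ⟨L, hL, fun g hg => ?_⟩ }, ?_, ?_⟩
  · obtain ⟨h1, h2⟩ := hLfix g hg
    have e1 : ρ g = 1 := by
      rw [← map_one ρ]
      exact hcongr (by rw [h1, map_one (galMat I.model), map_one])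
    have e2 : ε g = 1 := by
      rw [← map_one ε]
      exact hεcongr (by rw [h2, map_one (epsilonPadic p), Units.val_one, map_one])
    simp [hr1 g e1 e2]
  · intro ℓ hℓ hS hd A hA σ hσ
    have hw : ρ σ ⟨v₀, hv₀V⟩ ≠ 0 := fun h0 => hv₀ <| by
      have := congrArg (fun x => (ρ σ⁻¹ x : V)) h0
      simp only [← Module.End.mul_apply, ← map_mul, inv_mul_cancel, map_one, map_zero,
        Module.End.one_apply] at this
      exact congrArg Subtype.val this
    have hta : t σ = a ⟨ℓ, hℓ⟩ := by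
      have e1 := congr(($(hfrob hℓ hS hd hA hσ) ⟨v₀, hv₀V⟩ : V).1)
      have e2 := congr(($(ht σ) ⟨v₀, hv₀V⟩ : V).1)
      simp only [LinearMap.add_apply, LinearMap.sub_apply, LinearMap.smul_apply,
        LinearMap.zero_apply, Module.End.mul_apply, Module.End.one_apply, Submodule.coe_add,
        Submodule.coe_sub, Submodule.coe_smul, Submodule.coe_zero] at e1 e2
      have hne : ((ρ σ ⟨v₀, hv₀V⟩ : V) : Fin I.model.d → K) ≠ 0 := fun h => hw (Subtype.ext h)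
      refine smul_left_injective K hne (?_ : t σ • _ = a ⟨ℓ, hℓ⟩ • _)
      linear_combination (norm := module) e1 - e2
    show LinearMap.charpoly (Matrix.toLin' (r σ)) = _
    rw [Matrix.charpoly_toLin', hr σ, hta, hεfrob hℓ hd hA hσ]
  · intro q hq hd A hA σ hσ
    have e1 : ρ σ = 1 := by
      ext v : 2
      show galEnd I.model ι σ v = _
      rw [galEnd_inertia I.model ι I.es hq hd hA hσ]; rfl
    have e2 : ε σ = 1 := by
      show Units.map _ (epsilonPadic p σ) = 1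
      rw [epsilon_inertia hq (fun h => hd (h ▸ dvd_mul_left p N)) hA hσ, map_one]
    show Matrix.toLinAlgEquiv' (r σ) = 1
    rw [hr1 σ e1 e2, map_one]

end Fermat.Agent.EigenRep

end
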