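import Fermat.Agent.EigenRep.AdicRelation
import Fermat.Agent.EigenRep.LatticeRep
import Fermat.Agent.EigenRep.Residual
import Fermat.Agent.EigenRep.Forms
import Fermat.Prelude.Def_GaloisRep_Adic
import Fermat.Prelude.Def_CuspForm_HeckeAlgebra

/-!
# The λ-adic representation attached to a point of the Hecke algebra (S30), modulo the inputs
-/

set_option autoImplicit false

noncomputable section

namespace Fermat.Agent.EigenRep

open ModularCurve Matrix Polynomial IsLocalRing Module

local notation "Qbar" => AlgebraicClosure ℚ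

/-- Restricting to the image of a submodule does not change the characteristic polynomial. -/
theorem charpoly_restrict_map_subtype {K : Type*} [Field K] {V : Type*} [AddCommGroup V]
    [Module K V] [FiniteDimensional K V] {P : Submodule K V} (f : Module.End K V)
    (hf : ∀ x ∈ P, f x ∈ P) (W : Submodule K P) (hW : ∀ x ∈ W, f.restrict hf x ∈ W)
    (hW' : ∀ x ∈ W.map P.subtype, f x ∈ W.map P.subtype) :
    LinearMap.charpoly (f.restrict hW') = LinearMap.charpoly ((f.restrict hf).restrict hW) := by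
  rw [← LinearEquiv.charpoly_conj (Submodule.equivMapOfInjective P.subtype P.injective_subtype W)
    ((f.restrict hf).restrict hW)]
  congr 1
  ext x : 1
  obtain ⟨x, rfl⟩ := (Submodule.equivMapOfInjective P.subtype P.injective_subtype W).surjective x
  simp [LinearEquiv.conj_apply]
  rfl

/-- A lattice in a stable subspace gives a continuous representation. -/
theorem exists_galoisRepAdic_of_subspace {N p : ℕ} [NeZero N] [Fact p.Prime] (I : RepInputs N p)
    {R : Type} [CommRing R] [IsDomain R] [IsDiscreteValuationRing R]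
    (hpR : (p : R) ∈ maximalIdeal R) (ι : ℤ_[p] →+* R)
    (t : (Qbar ≃ₐ[ℚ] Qbar) → R) {L : Type} [Field L] [Algebra R L] [FaithfulSMul R L]
    (W : Submodule L (Fin I.model.d → L))
    (hW : ∀ g, ∀ w ∈ W, ((galMat I.model g).map ι).map (algebraMap R L) *ᵥ w ∈ W)
    (hspan : W ≤ Submodule.span L
      (embVec I.model.d R L '' {x | embVec I.model.d R L x ∈ W}))
    (hcase : (finrank L W = 1 ∧ ∀ g, ∀ w ∈ W, ((galMat I.model g).map ι).map (algebraMap R L) *ᵥ
        (((galMat I.model g).map ι).map (algebraMap R L) *ᵥ w) - algebraMap R L (t g) •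
        (((galMat I.model g).map ι).map (algebraMap R L) *ᵥ w) +
          algebraMap R L (ι (epsilonPadic p g : ℤ_[p])) • w = 0) ∨
      (finrank L W = 2 ∧ ∀ g, LinearMap.charpoly
        ((((galMat I.model g).map ι).map (algebraMap R L)).mulVecLin.restrict (hW g)) =
          X ^ 2 - C (algebraMap R L (t g)) * X +
            C (algebraMap R L (ι (epsilonPadic p g : ℤ_[p]))))) :
    ∃ ρ : GaloisRepAdic R,
      (∀ g, LinearMap.charpoly (ρ.ρ g) =
        X ^ 2 - C (t g) * X + C (ι (epsilonPadic p g : ℤ_[p]))) ∧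
      ∀ q : ℕ, q.Prime → ¬ q ∣ N → q ≠ p → ρ.IsUnramifiedAt q := by
  let A : (Qbar ≃ₐ[ℚ] Qbar) →* Matrix (Fin I.model.d) (Fin I.model.d) R :=
    ι.mapMatrix.toMonoidHom.comp (galMat I.model)
  let ε : (Qbar ≃ₐ[ℚ] Qbar) →* Rˣ := (Units.map ι.toMonoidHom).comp (epsilonPadic p)
  obtain ⟨r, hr, hrc⟩ := exists_integral_rankTwo A ε t W hW hspan hcase
  have hcong : ∀ n g, matMod p I.model.d n (galMat I.model g) = 1 →
      PadicInt.toZModPow n (epsilonPadic p g : ℤ_[p]) = 1 →
      ∃ C, r g = 1 + (p : R) ^ n • C := by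
    intro n g h1 h2
    have hent : ∀ i j, ∃ c, ι (galMat I.model g i j) =
        ι ((1 : Matrix (Fin I.model.d) (Fin I.model.d) ℤ_[p]) i j) + (p : R) ^ n * c := fun i j =>
      sub_mem_span_pow ι congr($(h1.trans (map_one (matMod p I.model.d n)).symm) i j)
    choose B hB using hent
    obtain ⟨e, he⟩ := sub_mem_span_pow ι (h2.trans (map_one (PadicInt.toZModPow n)).symm)
    refine hrc g _ ⟨Matrix.of B, ?_⟩ ⟨e, ?_⟩
    · refine Matrix.ext fun i j => ?_
      rw [Matrix.add_apply, Matrix.smul_apply, Matrix.of_apply, smul_eq_mul]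
      refine (hB i j).trans (congrArg (· + (p : R) ^ n * B i j) ?_)
      rcases eq_or_ne i j with rfl | h
      · rw [Matrix.one_apply_eq, Matrix.one_apply_eq, map_one]
      · rw [Matrix.one_apply_ne h, Matrix.one_apply_ne h, map_zero]
    · rw [map_one] at he
      exact he
  refine ⟨{ V := Fin 2 → R, finrank_eq := by simp,
            ρ := (Matrix.toLinAlgEquiv' : _ ≃ₐ[R] _).toAlgHom.toMonoidHom.comp r,
            isAdicContinuous := fun n => ?_ }, ?_, ?_⟩
  · obtain ⟨L, hL, hLfix⟩ := exists_level I n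
    refine ⟨L, hL, fun g hg u => ?_⟩
    obtain ⟨C, hC⟩ := hcong n g (hLfix g hg).1 (hLfix g hg).2
    show (r g) *ᵥ u - u ∈ _
    rw [hC, add_mulVec, one_mulVec, add_sub_cancel_left, smul_mulVec]
    exact Submodule.smul_mem_smul (Ideal.pow_mem_pow hpR n) Submodule.mem_top
  · intro g
    show LinearMap.charpoly (Matrix.toLin' (r g)) = _
    rw [Matrix.charpoly_toLin', hr g]
    rfl
  · intro q hq hqN hqp P hP σ hσ
    have hd : ¬ q ∣ N * p := fun h => by
      rcases (Nat.Prime.dvd_mul hq).mp h with h | h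
      · exact hqN h
      · exact hqp ((Nat.prime_dvd_prime_iff_eq hq Fact.out).mp h)
    obtain ⟨C, hC⟩ := hrc σ 0 ⟨0, by
      show (galMat I.model σ).map ι = _
      rw [galMat_inertia I.model I.es hq hd hP hσ, Matrix.map_one _ (map_zero ι) (map_one ι),
        zero_smul, add_zero]⟩
      ⟨0, by
        show ι (epsilonPadic p σ : ℤ_[p]) = _
        rw [epsilon_inertia hq hqp hP hσ, Units.val_one, map_one, zero_mul, add_zero]⟩
    show Matrix.toLinAlgEquiv' (r σ) = 1
    rw [hC, zero_smul, add_zero, map_one]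

theorem exists_galoisRepAdic_of_inputs {N p : ℕ} [NeZero N] [Fact p.Prime] (I : RepInputs N p)
    (S : Finset ℕ) (hpS : p ∈ S)
    (O : Type) [CommRing O] [IsDomain O] [IsDiscreteValuationRing O]
    [IsAdicComplete (maximalIdeal O) O] [Finite (ResidueField O)] [CharZero O]
    (hp : (p : O) ∈ maximalIdeal O)
    (χ : CuspForm.heckeAlgebra N 2 (↑S : Set ℕ) →+* O) :
    ∃ (O₂ : Type) (_ : CommRing O₂) (_ : IsDomain O₂) (_ : IsDiscreteValuationRing O₂)
      (_ : IsAdicComplete (maximalIdeal O₂) O₂)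
      (_ : Finite (ResidueField O₂)) (_ : CharZero O₂)
      (_ : Algebra O O₂) (_ : Module.Finite O O₂) (_ : IsLocalHom (algebraMap O O₂)),
      Function.Injective (algebraMap O O₂) ∧
      ∃ ρ : GaloisRepAdic O₂,
        (∀ (ℓ : ℕ) (hℓ : ℓ.Prime) (hℓN : ¬ ℓ ∣ N) (hℓS : ℓ ∉ (↑S : Set ℕ)),
          ∀ A : ValuationSubring Qbar, A.LiesOverPrime ℓ →
            ∀ σ : Qbar ≃ₐ[ℚ] Qbar, A.IsFrobeniusAt σ ℓ →
              LinearMap.charpoly (ρ.ρ σ) =
                X ^ 2 - C (algebraMap O O₂ (χ (CuspForm.heckeAlgebra.T hℓ hℓN hℓS))) * X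
                  + C ((ℓ : O₂))) ∧
        (∀ q : ℕ, q.Prime → ¬ q ∣ N → q ≠ p → ρ.IsUnramifiedAt q) := by
  classical
  let M := I.model
  let f : matAlg (matFamily M (↑S : Set ℕ)) →+* O := χ.comp (toForms M ↑S)
  let a : Nat.Primes → O := fun ℓ => if h : (ℓ : ℕ) ∈ (↑S : Set ℕ) then 0 else f (matGen _ ⟨ℓ, h⟩)
  let E := FractionRing O
  -- an integral eigenvector
  obtain ⟨v, hv0, hv⟩ := exists_eigenvector_family I (↑S : Set ℕ) ((algebraMap O E).comp f)
    (fun ℓ => algebraMap O E (a ℓ)) (fun ℓ => by simp only [a, dif_neg ℓ.2]; rfl)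
  obtain ⟨c, hc⟩ := IsLocalization.exist_integer_multiples_of_finite (nonZeroDivisors O) v
  choose v₁ hv₁ using hc
  have hne : ∃ w, w ≠ 0 ∧ w ∈ eigenSub M (↑S : Set ℕ) a := by
    have hcv : ∀ i, algebraMap O E (v₁ i) = algebraMap O E c * v i := fun i => by
      rw [hv₁, Algebra.smul_def]
    refine ⟨v₁, fun h => hv0 (funext fun i => ?_), (mem_eigenSub M).mpr fun ℓ hℓ => ?_⟩
    · have := hcv i
      rw [congrFun h i, Pi.zero_apply, map_zero, eq_comm, mul_eq_zero] at this
      exact this.resolve_left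
        (IsFractionRing.to_map_ne_zero_of_mem_nonZeroDivisors c.2)
    · funext i
      apply IsFractionRing.injective O E
      rw [RingHom.map_mulVec, Pi.smul_apply, smul_eq_mul, map_mul, hcv,
        show (algebraMap O E) ∘ v₁ = algebraMap O E c • v from funext hcv, mulVec_smul,
        Pi.smul_apply, smul_eq_mul, mul_left_comm]
      congr 1
      have := congrFun ((mem_eigenSub M).mp hv ℓ hℓ) i
      rw [show ((M.T ℓ).map (Int.cast : ℤ → O)).map (algebraMap O E) =
        (M.T ℓ).map (Int.cast : ℤ → E) by ext; simp]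
      exact this
  obtain ⟨t, hrel, htfrob⟩ := exists_adic_relation I hp S a hne
  let ι := padicHom p hp
  -- the representation over an algebraic closure
  let K := AlgebraicClosure E
  let ιK : ℤ_[p] →+* K := (algebraMap O K).comp ι
  have : FaithfulSMul O K := (faithfulSMul_iff_algebraMap_injective O K).mpr <| by
    rw [IsScalarTower.algebraMap_eq O E K]
    exact (algebraMap E K).injective.comp (IsFractionRing.injective O E)
  let P : Submodule K (Fin M.d → K) :=
    Submodule.span K (embVec M.d O K '' (eigenSub M (↑S : Set ℕ) a : Set (Fin M.d → O)))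
  have hnat : ∀ g u, galEnd M ιK g (embVec M.d O K u) = embVec M.d O K (galEnd M ι g u) := by
    intro g u
    rw [galEnd_apply, galEnd_apply, embVec_mulVec, Matrix.map_map]
    rfl
  have hP : ∀ g, ∀ w ∈ P, galEnd M ιK g w ∈ P := by
    intro g w hw
    induction hw using Submodule.span_induction with
    | mem w hw =>
        obtain ⟨u, hu, rfl⟩ := hw
        rw [hnat]
        exact Submodule.subset_span ⟨_, galEnd_mem_eigenSub M ι I.equivariant g hu, rfl⟩
    | zero => rw [map_zero]; exact P.zero_mem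
    | add x y _ _ hx hy => rw [map_add]; exact P.add_mem hx hy
    | smul r x _ hx => rw [map_smul]; exact P.smul_mem r hx
  let εO : (Qbar ≃ₐ[ℚ] Qbar) →* Oˣ := (Units.map ι.toMonoidHom).comp (epsilonPadic p)
  let εK : (Qbar ≃ₐ[ℚ] Qbar) →* Kˣ := (Units.map (algebraMap O K).toMonoidHom).comp εO
  have hPrel : ∀ g, ∀ w ∈ P, galEnd M ιK g (galEnd M ιK g w) -
      algebraMap O K (t g) • galEnd M ιK g w + algebraMap O K (εO g : O) • w = 0 := by
    intro g w hw
    induction hw using Submodule.span_induction with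
    | mem w hw =>
        obtain ⟨u, hu, rfl⟩ := hw
        have := congrArg (embVec M.d O K) (hrel g u hu)
        rw [map_add, map_sub, map_smul, map_smul, map_zero] at this
        rw [hnat, hnat, algebraMap_smul, algebraMap_smul]
        exact this
    | zero => simp
    | add x y _ _ hx hy =>
        rw [map_add, map_add, smul_add, smul_add]
        linear_combination (norm := abel) hx + hy
    | smul r x _ hx =>
        rw [map_smul, map_smul, smul_comm (algebraMap O K (t g)), smul_comm (algebraMap O K (εO g : O)),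
          ← smul_sub, ← smul_add, hx, smul_zero]
  let ρK : (Qbar ≃ₐ[ℚ] Qbar) →* Module.End K P :=
    { toFun := fun g => (galEnd M ιK g).restrict (hP g)
      map_one' := by ext w; simp
      map_mul' := fun g k => by ext w; simp }
  have : Nontrivial P := by
    obtain ⟨w, hw0, hw⟩ := hne
    refine ⟨⟨embVec M.d O K w, Submodule.subset_span ⟨w, hw, rfl⟩⟩, 0, fun h => hw0 ?_⟩
    funext i
    apply FaithfulSMul.algebraMap_injective O K
    exact (congrFun (congrArg Subtype.val h) i).trans (map_zero _).symm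
  have hρrel : ∀ g, ρK g * ρK g - algebraMap O K (t g) • ρK g + (εK g : K) • 1 = 0 := fun g => by
    ext w : 2
    exact hPrel g w w.2
  -- a stable line or plane
  have key : ∃ W : Submodule K (Fin M.d → K), ∃ hW : ∀ g, ∀ w ∈ W, galEnd M ιK g w ∈ W,
      (finrank K W = 1 ∧ W ≤ P) ∨ (finrank K W = 2 ∧ ∀ g,
        LinearMap.charpoly ((galEnd M ιK g).restrict (hW g)) =
          X ^ 2 - C (algebraMap O K (t g)) * X + C (algebraMap O K (εO g : O))) := by
    rcases exists_line_or_plane ρK εK (fun g => algebraMap O K (t g)) hρrel with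
      ⟨w, hw, hline⟩ | ⟨W, hW2, hW, hcp⟩
    · refine ⟨Submodule.span K {(w : Fin M.d → K)}, fun g x hx => ?_,
        Or.inl ⟨finrank_span_singleton (fun h => hw (Subtype.ext h)),
          (Submodule.span_singleton_le_iff_mem _ _).mpr w.2⟩⟩
      obtain ⟨r, rfl⟩ := Submodule.mem_span_singleton.mp hx
      obtain ⟨c', hc'⟩ := hline g
      rw [map_smul, show galEnd M ιK g (w : Fin M.d → K) = c' • (w : Fin M.d → K) from
        congrArg Subtype.val hc', smul_smul]
      exact Submodule.smul_mem _ _ (Submodule.mem_span_singleton_self _)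
    · have hW' : ∀ g, ∀ x ∈ W.map P.subtype, galEnd M ιK g x ∈ W.map P.subtype := by
        rintro g _ ⟨x, hx, rfl⟩
        exact ⟨ρK g x, hW g x hx, rfl⟩
      refine ⟨W.map P.subtype, hW', Or.inr ⟨?_, fun g => ?_⟩⟩
      · rw [Submodule.finrank_map_subtype_eq, hW2]
      · exact (charpoly_restrict_map_subtype (galEnd M ιK g) (hP g) W (hW g) (hW' g)).trans (hcp g)
  obtain ⟨W, hW, hcase⟩ := key
  -- the coefficient field and ring
  let b := Module.finBasis K W
  let coords : Set K := Set.range fun ij : Fin (finrank K W) × Fin M.d => (b ij.1 : Fin M.d → K) ij.2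
  let E₂ := IntermediateField.adjoin E coords
  have : FiniteDimensional E E₂ := by
    have : Finite coords := Set.finite_range _
    exact IntermediateField.finiteDimensional_adjoin fun x _ =>
      Algebra.IsIntegral.isIntegral (R := E) x
  obtain ⟨hdvr, hcomp, hres, hchar, hfin, hfr, hinj, hlh⟩ := integralClosure_coeff_props O E E₂
  let O₂ := integralClosure O E₂
  have : IsScalarTower O O₂ K := IsScalarTower.of_algebraMap_eq fun _ => rfl
  have : FaithfulSMul O₂ K := (faithfulSMul_iff_algebraMap_injective O₂ K).mpr <| by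
    intro x y h
    exact Subtype.ext (Subtype.ext h)
  let ι₂ : ℤ_[p] →+* O₂ := (algebraMap O O₂).comp ι
  have hA₂ : ∀ g, ((galMat M g).map ι₂).map (algebraMap O₂ K) = (galMat M g).map ιK := fun g => by
    ext i j
    exact (IsScalarTower.algebraMap_apply O O₂ K _).symm
  have hW₂ : ∀ g, ∀ w ∈ W, ((galMat M g).map ι₂).map (algebraMap O₂ K) *ᵥ w ∈ W := fun g w hw => by
    rw [hA₂]; exact hW g w hw
  have hspan : W ≤ Submodule.span K (embVec M.d O₂ K '' {x | embVec M.d O₂ K x ∈ W}) := by
    have hWb : W = Submodule.span K (W.subtype '' Set.range b) := by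
      rw [← Submodule.map_span, b.span_eq, Submodule.map_subtype_top]
    conv_lhs => rw [hWb]
    rw [Submodule.span_le]
    rintro _ ⟨_, ⟨i, rfl⟩, rfl⟩
    let y : Fin M.d → E₂ := fun k => ⟨(b i : Fin M.d → K) k,
      IntermediateField.subset_adjoin E coords ⟨(i, k), rfl⟩⟩
    obtain ⟨e, he⟩ := IsLocalization.exist_integer_multiples_of_finite (nonZeroDivisors O₂) y
    choose x hx using he
    have hxe : embVec M.d O₂ K x = algebraMap O₂ K e • (b i : Fin M.d → K) := by
      funext k
      have := congrArg (fun z : E₂ => (z : K)) (hx k)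
      simpa [Algebra.smul_def, embVec] using! this
    have he0 : algebraMap O₂ K e ≠ 0 := fun h =>
      nonZeroDivisors.ne_zero e.2 (FaithfulSMul.algebraMap_injective O₂ K (h.trans (map_zero _).symm))
    have hxW : embVec M.d O₂ K x ∈ W := by rw [hxe]; exact W.smul_mem _ (b i).2
    rw [SetLike.mem_coe, show W.subtype (b i) = (algebraMap O₂ K e)⁻¹ • embVec M.d O₂ K x by
      rw [hxe, smul_smul, inv_mul_cancel₀ he0, one_smul]; rfl]
    exact Submodule.smul_mem _ _ (Submodule.subset_span ⟨x, hxW, rfl⟩)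
  have hp₂ : (p : O₂) ∈ maximalIdeal O₂ := by
    rw [← map_natCast (algebraMap O O₂)]
    exact map_nonunit (algebraMap O O₂) _ hp
  have htow : ∀ x : O, algebraMap O₂ K (algebraMap O O₂ x) = algebraMap O K x := fun x =>
    (IsScalarTower.algebraMap_apply O O₂ K x).symm
  obtain ⟨ρ, hρ, hunr⟩ := exists_galoisRepAdic_of_subspace I hp₂ ι₂
      (fun g => algebraMap O O₂ (t g)) W hW₂ hspan <| by
    rcases hcase with ⟨h1, hle⟩ | ⟨h2, hcp⟩
    · refine Or.inl ⟨h1, fun g w hw => ?_⟩
      rw [hA₂, htow, show algebraMap O₂ K (ι₂ (epsilonPadic p g : ℤ_[p])) =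
        algebraMap O K (εO g : O) from htow _]
      exact hPrel g w (hle hw)
    · refine Or.inr ⟨h2, fun g => ?_⟩
      have hfg : (((galMat M g).map ι₂).map (algebraMap O₂ K)).mulVecLin.restrict (hW₂ g) =
          (galEnd M ιK g).restrict (hW g) := by
        ext w : 2
        show ((galMat M g).map ι₂).map (algebraMap O₂ K) *ᵥ (w : Fin M.d → K) = _
        rw [hA₂]; rfl
      rw [hfg, hcp g, htow, show algebraMap O₂ K (ι₂ (epsilonPadic p g : ℤ_[p])) =
        algebraMap O K (εO g : O) from htow _]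
  refine ⟨O₂, inferInstance, inferInstance, hdvr, hcomp, hres, hchar, inferInstance, hfin, hlh,
    hinj, ρ, fun ℓ hℓ hℓN hℓS A hA σ hσ => ?_, hunr⟩
  have hd : ¬ ℓ ∣ N * p := fun h => by
    rcases (Nat.Prime.dvd_mul hℓ).mp h with h | h
    · exact hℓN h
    · exact hℓS (Finset.mem_coe.mpr (((Nat.prime_dvd_prime_iff_eq hℓ Fact.out).mp h) ▸ hpS))
  have e1 : t σ = χ (CuspForm.heckeAlgebra.T hℓ hℓN hℓS) := by
    rw [htfrob ℓ hℓ (by simpa using hℓS) hd A hA σ hσ]
    simp only [a, dif_neg hℓS]
    exact congrArg χ (toForms_T M hℓ hℓN hℓS)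
  have e2 : ι₂ (epsilonPadic p σ : ℤ_[p]) = (ℓ : O₂) := by
    show algebraMap O O₂ (ι (epsilonPadic p σ : ℤ_[p])) = _
    rw [epsilon_frobenius hℓ (fun h => hd (h ▸ dvd_mul_left p N)) hA hσ, map_natCast, map_natCast]
  rw [hρ σ, e1, e2]

end Fermat.Agent.EigenRep

end
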