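import Fermat.Agent.EigenRep.TorsionAction
import Fermat.Agent.Chebotarev.Main

/-!
# Discharging the arithmetic inputs: Chebotarev, and the relations from a specialisation
-/

set_option autoImplicit false

noncomputable section

namespace Fermat.Agent.EigenRep

open ModularCurve

local notation "Qbar" => AlgebraicClosure ℚ

theorem frobeniusDense : FrobeniusDense := fun L hL g S =>
  haveI := hL
  Chebotarev.exists_isFrobeniusAt_eqOn L g S

variable {N p : ℕ} [NeZero N]

/-- Galois commutes with the whole Hecke algebra once it commutes with each operator. -/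
theorem smulCommClass_of_equivariant (hcomm : HeckeOperatorsCommuteBar N)
    (h : HeckeGaloisEquivariant N) :
    letI := heckeModuleBar N
    SMulCommClass (Qbar ≃ₐ[ℚ] Qbar) HeckeAlg (JZero N) := by
  let := heckeModuleBar N
  refine ⟨fun σ t => ?_⟩
  induction t using MvPolynomial.induction_on with
  | C a =>
      intro x
      rw [heckeModuleBar_C_smul, heckeModuleBar_C_smul]
      exact (DistribSMul.toAddMonoidHom (JZero N) σ).map_zsmul a x
  | add s t hs ht =>
      intro x
      rw [add_smul, add_smul, smul_add σ, hs, ht]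
  | mul_X t ℓ ht =>
      intro x
      rw [mul_smul, mul_smul, ht]
      congr 1
      show σ • (heckeGen ℓ • x) = heckeGen ℓ • (σ • x)
      rw [heckeModuleBar_heckeGen_smul hcomm, heckeModuleBar_heckeGen_smul hcomm]
      exact (h σ ℓ x).symm

/-- Eichler–Shimura relations on torsion, from the existence of specialisations. -/
theorem eichlerShimuraRelations_of_specialization (hcomm : HeckeOperatorsCommuteBar N)
    (h : HeckeGaloisEquivariant N)
    (hspec : letI := heckeModuleBar N
      ∀ (_ : SMulCommClass (Qbar ≃ₐ[ℚ] Qbar) HeckeAlg (JZero N)),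
        SpecializationExists (K := ℚ) (L := Qbar) N p (JZero N)) :
    EichlerShimuraRelations N p := by
  let := heckeModuleBar N
  have inst := smulCommClass_of_equivariant hcomm h
  have hsub : ∀ {σ : Qbar ≃ₐ[ℚ] Qbar} {x : JZero N} {n : ℕ}, p ^ n • x = 0 →
      p ^ n • (σ • x) = 0 := fun {σ x n} hx => by
    have h1 := (DistribSMul.toAddMonoidHom (JZero N) σ).map_nsmul (p ^ n) x
    rw [hx, map_zero] at h1
    exact h1.symm
  refine ⟨fun ℓ hℓ hd A hA σ hσ x hx => ?_, fun ℓ hℓ hd A hA σ hσ x hx => ?_⟩
  · obtain ⟨J', _, _, sp, F, hsp, -⟩ := hspec inst ℓ hℓ hd A hA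
    obtain ⟨n, hn⟩ := hx
    refine sub_eq_zero.mp (hsp.injective_torsion _ ⟨n, ?_⟩ ?_)
    · rw [nsmul_sub, hsub hn, hn, sub_zero]
    · rw [map_sub, hsp.inertia_comm σ hσ, sub_self]
  · obtain ⟨J', _, _, sp, F, hsp, hrel⟩ := hspec inst ℓ hℓ hd A hA
    obtain ⟨n, hn⟩ := hx
    refine hsp.injective_torsion _ ⟨n, ?_⟩ ?_
    · rw [nsmul_add, nsmul_sub, hsub (hsub hn), ← map_nsmul, hsub hn, map_zero, smul_comm, hn,
        smul_zero, sub_zero, add_zero]
    · have e := heckeModuleBar_heckeGen_smul hcomm ⟨ℓ, hℓ⟩ (σ • x)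
      refine (congrArg sp (congrArg (fun z => σ • σ • x - z + ℓ • x) e.symm)).trans ?_
      rw [map_add, map_sub, hsp.hecke_comm, map_nsmul, hsp.frobenius_comm σ hσ,
        hsp.frobenius_comm σ hσ]
      exact hrel (sp x)

end Fermat.Agent.EigenRep

end
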