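import Fermat.Agent.EigenRep.Interface
import Fermat.Agent.FunctionFieldRR.Approximation
import Fermat.Agent.FunctionFieldRR.RationalBase
import Fermat.Agent.Congruence.CurveFacts

/-!
# Galois orbits of places and of divisor classes are finite

Every place, and every degree-zero divisor class, of `ℚ̄ · F₀` is fixed by an open subgroup of
the absolute Galois group, for any function field `F₀ ⊆ ℚ((q))`.
-/

set_option autoImplicit false

noncomputable section

namespace Fermat.Agent.EigenRep

open ModularCurve AlgebraicCurve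

local notation "Qbar" => AlgebraicClosure ℚ

section Generic

variable {K F : Type*} [Field K] [IsAlgClosed K] [Field F] [Algebra K F]
  [FunctionFieldRR.IsFunctionField K F]

/-- A place is determined, among its images, by two functions. -/
theorem exists_fixing_pair (v : Place K F) :
    ∃ y f : F, ∀ g : SemilinearAut K F, g • y = y → g • f = f → g • v = v := by
  classical
  obtain ⟨π, hπ⟩ := IsDiscreteValuationRing.exists_irreducible v.toValuationSubring
  have hy : v.ord (π : F) = 1 := v.ord_coe_irreducible hπ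
  let s := (FunctionFieldRR.finite_ord_ne_zero (K := K) (π : F)).toFinset
  have hmem : ∀ w : Place K F, w.ord (π : F) = 1 → w ∈ s := fun w hw =>
    (FunctionFieldRR.finite_ord_ne_zero (K := K) (π : F)).mem_toFinset.mpr
      (show w.ord (π : F) ≠ 0 by omega)
  obtain ⟨f, -, hf⟩ := FunctionFieldRR.exists_ord_eq s fun w => if w = v then 1 else 0
  refine ⟨(π : F), f, fun g hgy hgf => ?_⟩
  have h1 : (g • v).ord (π : F) = 1 := by
    conv_lhs => rw [← hgy]
    rw [SemilinearAut.ord_smul, hy]
  have hv : v.ord f = 1 := by rw [hf v (hmem v hy), if_pos rfl]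
  have h2 : (g • v).ord f = 1 := by
    conv_lhs => rw [← hgf]
    rw [SemilinearAut.ord_smul, hv]
  have := hf (g • v) (hmem _ h1)
  rw [h2] at this
  by_contra hne
  rw [if_neg hne] at this
  exact one_ne_zero this

omit [IsAlgClosed K] [FunctionFieldRR.IsFunctionField K F] in
/-- Fixing every place of the support fixes the class. -/
theorem pic0_smul_eq_of_support (g : SemilinearAut K F) (D : Divisor.degZero (K := K) (F := F))
    (h : ∀ v ∈ (D : Divisor K F).support, g • v = v) : g • Pic0.mk D = Pic0.mk D := by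
  rw [SemilinearAut.pic0_smul_mk]
  refine congrArg Pic0.mk (Subtype.ext ?_)
  rw [SemilinearAut.coe_degZeroSMulHom, SemilinearAut.divisor_smul_def,
    Finsupp.mapDomain_congr (g := id) h, Finsupp.mapDomain_id]

end Generic

variable {F₀ : IntermediateField ℚ (LaurentSeries ℚ)}

/-- The property of being fixed by the absolute Galois group of a number field. -/
def HasLevel (x : LaurentSeries Qbar) : Prop :=
  ∃ L : IntermediateField ℚ Qbar, FiniteDimensional ℚ L ∧
    ∀ σ : Qbar ≃ₐ[ℚ] Qbar, (∀ a ∈ L, σ a = a) → coeffMap (σ : Qbar →+* Qbar) x = x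

theorem HasLevel.op₂ {x y z : LaurentSeries Qbar} (hx : HasLevel x) (hy : HasLevel y)
    (h : ∀ f : LaurentSeries Qbar →+* LaurentSeries Qbar, f x = x → f y = y → f z = z) :
    HasLevel z := by
  obtain ⟨L, hL, hx⟩ := hx
  obtain ⟨M, hM, hy⟩ := hy
  exact ⟨L ⊔ M, IntermediateField.finiteDimensional_sup L M, fun σ hσ =>
    h _ (hx σ fun a ha => hσ a (le_sup_left (a := L) (b := M) ha))
      (hy σ fun a ha => hσ a (le_sup_right (a := L) (b := M) ha))⟩

/-- An element of `ℚ̄ · F₀` is fixed by the absolute Galois group of a number field. -/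
theorem exists_level_element (x : laurentBaseChange Qbar F₀) :
    HasLevel (x : LaurentSeries Qbar) := by
  have hone : HasLevel 1 := ⟨⊥, inferInstance, fun σ _ => map_one _⟩
  refine Subfield.closure_induction (p := fun y _ => HasLevel y) ?_ hone
    (fun y z _ _ hy hz => hy.op₂ hz fun f h k => by rw [map_add, h, k])
    (fun y _ hy => hy.op₂ hy fun f h _ => by rw [map_neg, h])
    (fun y _ hy => hy.op₂ hy fun f h _ => by rw [map_inv₀, h])
    (fun y z _ _ hy hz => hy.op₂ hz fun f h k => by rw [map_mul, h, k])
    (mem_laurentBaseChange_iff.mp x.2)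
  intro y hy
  rcases hy with ⟨c, rfl⟩ | ⟨z, -, rfl⟩
  · have : Algebra.IsAlgebraic ℚ Qbar := AlgebraicClosure.isAlgebraic ℚ
    refine ⟨IntermediateField.adjoin ℚ {c}, IntermediateField.adjoin.finiteDimensional
      (Algebra.IsIntegral.isIntegral c), fun σ hσ => ?_⟩
    rw [coeffMap_algebraMap]
    exact congrArg _ (hσ c (IntermediateField.mem_adjoin_simple_self ℚ c))
  · exact ⟨⊥, inferInstance, fun σ _ => coeffMap_coeffEmb σ z⟩

variable [FunctionFieldRR.IsFunctionField Qbar (laurentBaseChange Qbar F₀)]

/-- A place is fixed by the absolute Galois group of a number field. -/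
theorem exists_level_place (v : Place Qbar (laurentBaseChange Qbar F₀)) :
    ∃ L : IntermediateField ℚ Qbar, FiniteDimensional ℚ L ∧
      ∀ σ : Qbar ≃ₐ[ℚ] Qbar, (∀ a ∈ L, σ a = a) → arithmeticGalois F₀ σ • v = v := by
  obtain ⟨y, f, h⟩ := exists_fixing_pair v
  obtain ⟨L, hL, hLy⟩ := exists_level_element y
  obtain ⟨M, hM, hMf⟩ := exists_level_element f
  refine ⟨L ⊔ M, IntermediateField.finiteDimensional_sup L M, fun σ hσ => h _ ?_ ?_⟩
  · exact Subtype.ext (hLy σ fun a ha => hσ a (le_sup_left (a := L) (b := M) ha))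
  · exact Subtype.ext (hMf σ fun a ha => hσ a (le_sup_right (a := L) (b := M) ha))

/-- A degree zero divisor class is fixed by the absolute Galois group of a number field. -/
theorem exists_level_pic0 (x : Pic0 Qbar (laurentBaseChange Qbar F₀)) :
    ∃ L : IntermediateField ℚ Qbar, FiniteDimensional ℚ L ∧
      ∀ σ : Qbar ≃ₐ[ℚ] Qbar, (∀ a ∈ L, σ a = a) → σ • x = x := by
  obtain ⟨D, rfl⟩ := Pic0.mk_surjective x
  choose L hL hfix using exists_level_place (F₀ := F₀)
  let s := (D : Divisor Qbar (laurentBaseChange Qbar F₀)).support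
  refine ⟨⨆ v ∈ s, L v, ?_, fun σ hσ => ?_⟩
  · exact IntermediateField.finiteDimensional_iSup_of_finset
  · exact pic0_smul_eq_of_support (arithmeticGalois F₀ σ) D fun v hv =>
      hfix v σ fun a ha => hσ a (le_iSup₂ (f := fun w (_ : w ∈ s) => L w) v hv ha)

/-- Points of `J₀(N)` have open stabilisers. -/
theorem jZeroSmooth (N : ℕ) [NeZero N] : JZeroSmooth N := by
  have := Congruence.isFunctionField_modularFunctionFieldBar N
  exact exists_level_pic0

end Fermat.Agent.EigenRep

end
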