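import Mathlib.RingTheory.DedekindDomain.IntegralClosure
import Mathlib.RingTheory.DedekindDomain.PID
import Mathlib.RingTheory.DiscreteValuationRing.Basic
import Mathlib.RingTheory.AdicCompletion.RingHom
import Mathlib.NumberTheory.Padics.RingHoms
import Mathlib.RingTheory.LocalRing.MaximalIdeal.Basic
import Fermat.Prelude.Thm_IsLocalRing_isAdicComplete_of_module_finite
import Fermat.Prelude.Thm_Algebra_finite_maximalSpectrum_and_bijective_localization_of_module_finite

/-!
# Coefficient rings: finite extensions of complete discrete valuation rings, and `ℤ_p → 𝒪`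
-/

set_option autoImplicit false

noncomputable section

namespace Fermat.Agent.EigenRep

open IsLocalRing

section PadicMap

variable (p : ℕ) [Fact p.Prime] {O : Type*} [CommRing O] [IsLocalRing O]
  [IsAdicComplete (maximalIdeal O) O]

omit [Fact p.Prime] [IsAdicComplete (maximalIdeal O) O] in
theorem padicLevel_compat (hp : (p : O) ∈ maximalIdeal O) (n : ℕ) (a : ℕ) (b : ℕ)
    (h : (a : ZMod (p ^ n)) = (b : ZMod (p ^ n))) :
    (a : O ⧸ maximalIdeal O ^ n) = (b : O ⧸ maximalIdeal O ^ n) := by
  obtain ⟨c, hc⟩ := (ZMod.intCast_eq_intCast_iff_dvd_sub (a : ℤ) (b : ℤ) (p ^ n)).mp (by exact_mod_cast h)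
  rw [← map_natCast (Ideal.Quotient.mk (maximalIdeal O ^ n)) a,
    ← map_natCast (Ideal.Quotient.mk (maximalIdeal O ^ n)) b, eq_comm, Ideal.Quotient.eq]
  have : (b : O) - (a : O) = (p : O) ^ n * (c : O) := by
    have := congrArg (Int.cast : ℤ → O) hc
    push_cast at this
    exact this
  rw [this]
  exact Ideal.mul_mem_right _ _ (Ideal.pow_mem_pow hp n)

/-- The cast `ℤ/pⁿ → O/𝔪ⁿ`. -/
def castLevel (hp : (p : O) ∈ maximalIdeal O) (n : ℕ) :
    ZMod (p ^ n) →+* O ⧸ maximalIdeal O ^ n where
  toFun a := (a.val : O ⧸ maximalIdeal O ^ n)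
  map_one' := by
    have : NeZero (p ^ n) := ⟨pow_ne_zero n (Fact.out : p.Prime).ne_zero⟩
    exact (padicLevel_compat p hp n (1 : ZMod (p ^ n)).val 1
      ((ZMod.natCast_zmod_val _).trans Nat.cast_one.symm)).trans Nat.cast_one
  map_zero' := by simp
  map_add' a b := by
    have : NeZero (p ^ n) := ⟨pow_ne_zero n (Fact.out : p.Prime).ne_zero⟩
    rw [← Nat.cast_add]
    exact padicLevel_compat p hp n _ _ (by simp)
  map_mul' a b := by
    have : NeZero (p ^ n) := ⟨pow_ne_zero n (Fact.out : p.Prime).ne_zero⟩
    rw [← Nat.cast_mul]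
    exact padicLevel_compat p hp n _ _ (by simp)

/-- The `n`-th level of `ℤ_p → O`. -/
def padicLevel (hp : (p : O) ∈ maximalIdeal O) (n : ℕ) : ℤ_[p] →+* O ⧸ maximalIdeal O ^ n :=
  (castLevel p hp n).comp (PadicInt.toZModPow n)

omit [IsAdicComplete (maximalIdeal O) O] in
theorem padicLevel_apply (hp : (p : O) ∈ maximalIdeal O) (n : ℕ) (x : ℤ_[p]) :
    padicLevel p hp n x = ((PadicInt.toZModPow n x).val : O ⧸ maximalIdeal O ^ n) := rfl

/-- The canonical map `ℤ_p → O` to a complete local ring with `p ∈ 𝔪`. -/
def padicHom (hp : (p : O) ∈ maximalIdeal O) : ℤ_[p] →+* O :=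
  IsAdicComplete.liftRingHom (maximalIdeal O) (padicLevel p hp) fun {m n} hle => by
    have : NeZero (p ^ m) := ⟨pow_ne_zero m (Fact.out : p.Prime).ne_zero⟩
    have : NeZero (p ^ n) := ⟨pow_ne_zero n (Fact.out : p.Prime).ne_zero⟩
    refine RingHom.ext fun x => ?_
    rw [RingHom.comp_apply, padicLevel_apply, padicLevel_apply, map_natCast]
    refine padicLevel_compat p hp m _ _ ?_
    rw [ZMod.natCast_zmod_val, ← PadicInt.zmod_cast_comp_toZModPow m n hle, RingHom.comp_apply,
      ZMod.natCast_val, ZMod.castHom_apply]

end PadicMap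

/-- The integral closure of a complete discrete valuation ring in a finite extension. -/
theorem integralClosure_coeff_props (O E L : Type) [CommRing O] [IsDomain O]
    [IsDiscreteValuationRing O] [IsAdicComplete (maximalIdeal O) O] [Finite (ResidueField O)]
    [CharZero O] [Field E] [Field L] [Algebra O E] [IsFractionRing O E] [Algebra E L]
    [FiniteDimensional E L] [Algebra O L] [IsScalarTower O E L] :
    ∃ (_ : IsDiscreteValuationRing (integralClosure O L))
      (_ : IsAdicComplete (maximalIdeal (integralClosure O L)) (integralClosure O L)),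
      Finite (ResidueField (integralClosure O L)) ∧ CharZero (integralClosure O L) ∧
      Module.Finite O (integralClosure O L) ∧ IsFractionRing (integralClosure O L) L ∧
      Function.Injective (algebraMap O (integralClosure O L)) ∧
      IsLocalHom (algebraMap O (integralClosure O L)) := by
  have : CharZero E :=
    charZero_of_injective_algebraMap (IsFractionRing.injective O E)
  have hinjL : Function.Injective (algebraMap O L) := by
    rw [IsScalarTower.algebraMap_eq O E L]
    exact (algebraMap E L).injective.comp (IsFractionRing.injective O E)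
  have : CharZero L := charZero_of_injective_algebraMap hinjL
  let T := integralClosure O L
  have hfin : Module.Finite O T := IsIntegralClosure.finite O E L T
  have hfr : IsFractionRing T L :=
    integralClosure.isFractionRing_of_finite_extension E L
  have hded : IsDedekindDomain T := integralClosure.isDedekindDomain O E L
  have hinjT : Function.Injective (algebraMap O T) := fun x y h => hinjL <| by
    simpa using congrArg (fun z : T => (z : L)) h
  obtain ⟨hfinmax, hbij, -, -⟩ :=
    Algebra.finite_maximalSpectrum_and_bijective_localization_of_module_finite (𝒪 := O) T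
  have hsub : Subsingleton (MaximalSpectrum T) := by
    refine ⟨fun I J => ?_⟩
    by_contra hne
    classical
    obtain ⟨e₁, he₁⟩ := hbij.2 (Pi.single I 1)
    obtain ⟨e₂, he₂⟩ := hbij.2 (Pi.single J 1)
    have hz : e₁ * e₂ = 0 := hbij.1 <| by
      rw [map_mul, map_zero, he₁, he₂]
      funext K
      rcases eq_or_ne K I with rfl | hK
      · rw [Pi.mul_apply, Pi.single_eq_of_ne hne, mul_zero, Pi.zero_apply]
      · rw [Pi.mul_apply, Pi.single_eq_of_ne hK, zero_mul, Pi.zero_apply]
    rcases mul_eq_zero.mp hz with h | h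
    · rw [h, map_zero] at he₁
      exact one_ne_zero (α := Localization.AtPrime I.asIdeal) (by simpa using (congrFun he₁ I).symm)
    · rw [h, map_zero] at he₂
      exact one_ne_zero (α := Localization.AtPrime J.asIdeal) (by simpa using (congrFun he₂ J).symm)
  obtain ⟨P, hP⟩ := Ideal.exists_maximal T
  have hloc : IsLocalRing T := IsLocalRing.of_unique_max_ideal
    ⟨P, hP, fun Q hQ =>
      congrArg MaximalSpectrum.asIdeal (hsub.elim (⟨Q, hQ⟩ : MaximalSpectrum T) ⟨P, hP⟩)⟩
  have hnf : ¬ IsField T := by
    intro hT
    exact IsDiscreteValuationRing.not_isField O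
      ((Algebra.IsIntegral.isField_iff_isField (R := O) (S := T) hinjT).mpr hT)
  have : IsPrincipalIdealRing T := by
    refine IsPrincipalIdealRing.of_finite_maximals ?_
    exact Set.Finite.subset (Set.finite_singleton P) fun Q hQ =>
      congrArg MaximalSpectrum.asIdeal (hsub.elim (⟨Q, hQ⟩ : MaximalSpectrum T) ⟨P, hP⟩)
  have hdvr : IsDiscreteValuationRing T :=
    { not_a_field' := fun h => hnf (IsLocalRing.isField_iff_maximalIdeal_eq.mpr h) }
  have hlh : IsLocalHom (algebraMap O T) := by
    exact (algebraMap_isIntegral_iff.mpr inferInstance).isLocalHom hinjT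
  have hcomp : IsAdicComplete (maximalIdeal T) T :=
    IsLocalRing.isAdicComplete_of_module_finite (𝒪 := O)
  have hres : Module.Finite (ResidueField O) (ResidueField T) :=
    inferInstance
  refine ⟨hdvr, hcomp, Module.finite_of_finite (ResidueField O), ?_, hfin, hfr, hinjT, hlh⟩
  exact charZero_of_injective_algebraMap hinjT

end Fermat.Agent.EigenRep

end
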