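import Fermat.Agent.EigenRep.EigenSpace
import Fermat.Agent.EigenRep.CoeffRing

/-!
# The quadratic relation for every Galois element, λ-adically

On integral eigenvectors with coefficients in a complete discrete valuation ring, the relation
`g² - t(g) g + ε(g) = 0` extends from Frobenius elements to all of the Galois group.
-/

set_option autoImplicit false

noncomputable section

namespace Fermat.Agent.EigenRep

open ModularCurve Matrix IsLocalRing

local notation "Qbar" => AlgebraicClosure ℚ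

variable {N p : ℕ} [NeZero N] [Fact p.Prime]
  {O : Type} [CommRing O] [IsDomain O] [IsDiscreteValuationRing O]
  [IsAdicComplete (maximalIdeal O) O]

omit [NeZero N] [IsDomain O] [IsDiscreteValuationRing O] [IsAdicComplete (maximalIdeal O) O] in
theorem sub_mem_span_pow {R : Type*} [CommRing R] (ι : ℤ_[p] →+* R) {n : ℕ} {x y : ℤ_[p]}
    (h : PadicInt.toZModPow n x = PadicInt.toZModPow n y) :
    ∃ c, ι x = ι y + (p : R) ^ n * c := by
  rw [← RingHom.sub_mem_ker_iff, PadicInt.ker_toZModPow, Ideal.mem_span_singleton] at h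
  obtain ⟨c, hc⟩ := h
  exact ⟨ι c, by rw [← map_natCast ι, ← map_pow, ← map_mul, ← hc, map_sub]; ring⟩

omit [IsAdicComplete (maximalIdeal O) O] in
/-- A primitive eigenvector. -/
theorem exists_primitive_vector {d : ℕ} (P : Submodule O (Fin d → O))
    (hsat : ∀ (c : O) (x : Fin d → O), c ≠ 0 → c • x ∈ P → x ∈ P) {v : Fin d → O}
    (hv : v ∈ P) (hv0 : v ≠ 0) : ∃ w ∈ P, ∃ i, w i = 1 := by
  classical
  obtain ⟨j, hj⟩ := Function.ne_iff.mp hv0
  have hne : (Finset.univ.filter fun i => v i ≠ 0).Nonempty := ⟨j, by simpa using hj⟩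
  obtain ⟨i, hi, hmin⟩ := Finset.exists_min_image _
    (fun i => IsDiscreteValuationRing.addVal O (v i)) hne
  rw [Finset.mem_filter] at hi
  have hdvd : ∀ k, v i ∣ v k := fun k => by
    rcases eq_or_ne (v k) 0 with hk | hk
    · rw [hk]; exact dvd_zero _
    · exact IsDiscreteValuationRing.addVal_le_iff_dvd.mp (hmin k (by simpa using hk))
  choose w hw using hdvd
  refine ⟨w, hsat (v i) w hi.2 (by rwa [show v i • w = v from funext fun k => (hw k).symm]), i, ?_⟩
  exact mul_left_cancel₀ hi.2 (by rw [mul_one]; exact (hw i).symm)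

theorem exists_adic_relation (I : RepInputs N p) (hp : (p : O) ∈ maximalIdeal O) (S : Finset ℕ)
    (a : Nat.Primes → O) (hne : ∃ v, v ≠ 0 ∧ v ∈ eigenSub I.model (↑S : Set ℕ) a) :
    ∃ t : (Qbar ≃ₐ[ℚ] Qbar) → O,
      (∀ g, ∀ v ∈ eigenSub I.model (↑S : Set ℕ) a,
        galEnd I.model (padicHom p hp) g (galEnd I.model (padicHom p hp) g v) -
          t g • galEnd I.model (padicHom p hp) g v +
          padicHom p hp (epsilonPadic p g : ℤ_[p]) • v = 0) ∧
      ∀ (ℓ : ℕ) (hℓ : ℓ.Prime), ℓ ∉ S → ¬ ℓ ∣ N * p → ∀ A : ValuationSubring Qbar,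
        A.LiesOverPrime ℓ → ∀ σ : Qbar ≃ₐ[ℚ] Qbar, A.IsFrobeniusAt σ ℓ →
          t σ = a ⟨ℓ, hℓ⟩ := by
  classical
  let ι := padicHom p hp
  let V := eigenSub I.model (↑S : Set ℕ) a
  let π := galEnd I.model ι
  obtain ⟨v, hv0, hv⟩ := hne
  obtain ⟨w, hw, i, hwi⟩ := exists_primitive_vector V (fun c x hc hx => by
    rw [mem_eigenSub] at hx ⊢
    intro ℓ hℓ
    have := hx ℓ hℓ
    rw [mulVec_smul, smul_comm] at this
    exact smul_right_injective _ hc this) hv hv0
  have hunit : ∀ g, ∃ j, IsUnit (π g w j) := by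
    intro g
    by_contra hcon
    push Not at hcon
    have h1 : π g⁻¹ (π g w) = w := by
      rw [← Module.End.mul_apply, ← map_mul, inv_mul_cancel, map_one, Module.End.one_apply]
    have h2 : π g⁻¹ (π g w) i ∈ maximalIdeal O := by
      show ∑ j, (galMat I.model g⁻¹).map ι i j * π g w j ∈ maximalIdeal O
      exact Ideal.sum_mem _ fun j _ => Ideal.mul_mem_left _ _ ((mem_maximalIdeal _).mpr (hcon j))
    rw [h1, hwi] at h2
    exact (Ideal.IsMaximal.ne_top inferInstance) ((Ideal.eq_top_iff_one _).mpr h2)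
  choose j hj using hunit
  let x : (Qbar ≃ₐ[ℚ] Qbar) → (Fin I.model.d → O) → (Fin I.model.d → O) := fun g u =>
    π g (π g u) + ι (epsilonPadic p g : ℤ_[p]) • u
  let t : (Qbar ≃ₐ[ℚ] Qbar) → O := fun g => x g w (j g) * ((hj g).unit⁻¹ : Oˣ)
  have htj : ∀ g, t g * π g w (j g) = x g w (j g) := fun g => by
    rw [mul_assoc, IsUnit.val_inv_mul, mul_one]
  have hfrob : ∀ {ℓ : ℕ} (hℓ : ℓ.Prime), ℓ ∉ S → ¬ ℓ ∣ N * p → ∀ {A : ValuationSubring Qbar},
      A.LiesOverPrime ℓ → ∀ {σ : Qbar ≃ₐ[ℚ] Qbar}, A.IsFrobeniusAt σ ℓ →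
        ∀ u ∈ V, x σ u = a ⟨ℓ, hℓ⟩ • π σ u := by
    intro ℓ hℓ hS hd A hA σ hσ u hu
    have h := galEnd_frobenius I.model ι I.es I.equivariant hℓ (by simpa using hS) hd hA hσ hu
    show π σ (π σ u) + ι _ • u = _
    rw [epsilon_frobenius hℓ (fun h' => hd (h' ▸ dvd_mul_left p N)) hA hσ, map_natCast]
    linear_combination (norm := module) h
  refine ⟨t, fun g u hu => ?_, fun ℓ hℓ hS hd A hA σ hσ => ?_⟩
  · suffices x g u = t g • π g u by
      show π g (π g u) - t g • π g u + ι _ • u = 0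
      linear_combination (norm := module) this
    funext k
    rw [Pi.smul_apply, smul_eq_mul, ← sub_eq_zero]
    refine IsHausdorff.haus (I := maximalIdeal O) inferInstance _ fun n => ?_
    rw [SModEq.zero, smul_eq_mul, Ideal.mul_top, ← Ideal.Quotient.eq_zero_iff_mem]
    obtain ⟨ℓ, hℓ, hS, hd, A, hA, σ, hσ, hg1, hg2⟩ := exists_frobenius_congr I n g S
    let q := Ideal.Quotient.mk (maximalIdeal O ^ n)
    have hpn : q ((p : O) ^ n) = 0 :=
      Ideal.Quotient.eq_zero_iff_mem.mpr (Ideal.pow_mem_pow hp n)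
    have hmat : ((galMat I.model g).map ι).map q = ((galMat I.model σ).map ι).map q := by
      ext r s
      obtain ⟨c, hc⟩ := sub_mem_span_pow ι congr($hg1 r s)
      simp only [Matrix.map_apply]
      rw [hc, map_add, map_mul, hpn, zero_mul, add_zero]
    have hεq : q (ι (epsilonPadic p g : ℤ_[p])) = q (ι (epsilonPadic p σ : ℤ_[p])) := by
      obtain ⟨c, hc⟩ := sub_mem_span_pow ι hg2
      rw [hc, map_add, map_mul, hpn, zero_mul, add_zero]
    have hπ : ∀ u r, q (π g u r) = q (π σ u r) := fun u r => by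
      show q (((galMat I.model g).map ι *ᵥ u) r) = q (((galMat I.model σ).map ι *ᵥ u) r)
      rw [RingHom.map_mulVec, RingHom.map_mulVec, hmat]
    have hππ : ∀ r, q (π g (π g u) r) = q (π σ (π σ u) r) := fun r => by
      rw [hπ (π g u) r]
      show q (((galMat I.model σ).map ι *ᵥ π g u) r) = q (((galMat I.model σ).map ι *ᵥ π σ u) r)
      rw [RingHom.map_mulVec, RingHom.map_mulVec, show q ∘ π g u = q ∘ π σ u from funext (hπ u)]
    have hππw : q (π g (π g w) (j g)) = q (π σ (π σ w) (j g)) := by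
      rw [hπ (π g w) (j g)]
      show q (((galMat I.model σ).map ι *ᵥ π g w) _) = q (((galMat I.model σ).map ι *ᵥ π σ w) _)
      rw [RingHom.map_mulVec, RingHom.map_mulVec, show q ∘ π g w = q ∘ π σ w from funext (hπ w)]
    have hxu : q (x g u k) = q (a ⟨ℓ, hℓ⟩) * q (π g u k) := by
      have := congrArg q (congrFun (hfrob hℓ hS hd hA hσ u hu) k)
      simp only [x, Pi.add_apply, Pi.smul_apply, smul_eq_mul, map_add, map_mul] at this ⊢
      rw [hππ k, hεq, this, hπ u k]
    have hxw : q (x g w (j g)) = q (a ⟨ℓ, hℓ⟩) * q (π g w (j g)) := by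
      have := congrArg q (congrFun (hfrob hℓ hS hd hA hσ w hw) (j g))
      simp only [x, Pi.add_apply, Pi.smul_apply, smul_eq_mul, map_add, map_mul] at this ⊢
      rw [hππw, hεq, this, hπ w (j g)]
    have hta : q (t g) = q (a ⟨ℓ, hℓ⟩) := by
      rw [← htj g, map_mul] at hxw
      exact ((hj g).map q).mul_right_cancel hxw
    show q (x g u k - t g * π g u k) = 0
    rw [map_sub, map_mul, hxu, hta, sub_self]
  · have h := congrFun (hfrob hℓ hS hd hA hσ w hw) (j σ)
    rw [Pi.smul_apply, smul_eq_mul, ← htj σ] at h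
    exact (hj σ).mul_right_cancel h

end Fermat.Agent.EigenRep

end
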