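import Fermat.Agent.EigenRep.Residual
import Fermat.Agent.EigenRep.Forms

/-!
# The residual representation attached to an eigenform (S29), modulo the torsion inputs
-/

set_option autoImplicit false

noncomputable section

namespace Fermat.Agent.EigenRep

open Polynomial

/-- The residue field of a prime of `ℤ̄` over `p` is algebraically closed. -/
theorem isAlgClosed_quotient (P : Ideal (integralClosure ℤ ℂ)) [P.IsMaximal] :
    letI := Ideal.Quotient.field P
    IsAlgClosed (integralClosure ℤ ℂ ⧸ P) := by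
  let := Ideal.Quotient.field P
  refine IsAlgClosed.of_exists_root _ fun q hq hirr => ?_
  have hlift : q ∈ Polynomial.lifts (Ideal.Quotient.mk P) := by
    rw [Polynomial.lifts_iff_coeff_lifts]
    exact fun n => Ideal.Quotient.mk_surjective (q.coeff n)
  obtain ⟨Q, hQ, hdeg, hQm⟩ := Polynomial.lifts_and_natDegree_eq_and_monic hlift hq
  have hpos : (Q.map (algebraMap (integralClosure ℤ ℂ) ℂ)).degree ≠ 0 := by
    rw [Polynomial.degree_eq_natDegree (hQm.map _).ne_zero, hQm.natDegree_map, hdeg]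
    exact_mod_cast hirr.natDegree_pos.ne'
  obtain ⟨x, hx⟩ := IsAlgClosed.exists_root _ hpos
  have hroot : Q.eval₂ (algebraMap (integralClosure ℤ ℂ) ℂ) x = 0 := by
    rwa [Polynomial.IsRoot, Polynomial.eval_map] at hx
  have hint : IsIntegral ℤ x :=
    isIntegral_trans (A := integralClosure ℤ ℂ) x ⟨Q, hQm, hroot⟩
  refine ⟨Ideal.Quotient.mk P ⟨x, hint⟩, ?_⟩
  rw [← hQ, Polynomial.eval_map, Polynomial.eval₂_hom]
  have : Q.eval ⟨x, hint⟩ = 0 := by
    apply Subtype.ext
    rw [show ((Q.eval ⟨x, hint⟩ : integralClosure ℤ ℂ) : ℂ) =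
      algebraMap (integralClosure ℤ ℂ) ℂ (Q.eval ⟨x, hint⟩) from rfl,
      ← Polynomial.eval₂_hom (algebraMap (integralClosure ℤ ℂ) ℂ)]
    exact hroot
  rw [this, map_zero]

/-- S29 from the torsion inputs. -/
theorem exists_residualGaloisRep_of_inputs {N : ℕ}
    (hI : ∀ (_ : NeZero N) (p : ℕ) (_ : Fact p.Prime), Nonempty (RepInputs N p))
    {g : CuspForm (CongruenceSubgroup.Gamma0 N) 2} (hg : g.IsNormalizedEigenform)
    {p : ℕ} (hp : p.Prime) {k : Type} [Field k] [CharP k p]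
    (φ : integralClosure ℤ ℂ →+* k) :
    ∃ ρ : ResidualGaloisRep k, ρ.IsAttachedTo g φ ∧
      ∀ ℓ : ℕ, ℓ.Prime → ¬ ℓ ∣ N * p → ρ.IsUnramifiedAt ℓ := by
  rcases Nat.eq_zero_or_pos N with rfl | hN
  · exact ⟨{ V := Fin 2 → k, finrank_eq := by simp, ρ := 1,
             factorsThroughFiniteLevel := ⟨⊥, inferInstance, fun _ _ => rfl⟩ },
      fun ℓ _ hd => absurd (dvd_zero ℓ) hd, fun ℓ _ hd => absurd (by simp) hd⟩
  have : NeZero N := ⟨hN.ne'⟩
  have : Fact p.Prime := ⟨hp⟩
  obtain ⟨I⟩ := hI inferInstance p inferInstance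
  let P := RingHom.ker φ
  have : P.IsPrime := RingHom.ker_isPrime φ
  have hmax : P.IsMaximal := by
    refine Ideal.isMaximal_of_isIntegral_of_isMaximal_comap (R := ℤ) P ?_
    have hle : Ideal.span {(p : ℤ)} ≤ P.comap (algebraMap ℤ (integralClosure ℤ ℂ)) := by
      rw [Ideal.span_singleton_le_iff_mem, Ideal.mem_comap, RingHom.mem_ker, map_natCast,
        map_natCast, CharP.cast_eq_zero]
    have hm : (Ideal.span {(p : ℤ)}).IsMaximal :=
      PrincipalIdealRing.isMaximal_of_irreducible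
        (Int.prime_iff_natAbs_prime.2 (by simpa)).irreducible
    exact hm.eq_of_le (Ideal.IsPrime.ne_top inferInstance) hle ▸ hm
  let K := integralClosure ℤ ℂ ⧸ P
  let : Field K := Ideal.Quotient.field P
  have : IsAlgClosed K := isAlgClosed_quotient P
  let ψ : K →+* k := Ideal.Quotient.lift P φ fun _ h => h
  have : CharP K p := (RingHom.charP_iff ψ ψ.injective p).mpr inferInstance
  obtain ⟨f, hf⟩ := exists_eigenHom I.model hg
  let fK := (Ideal.Quotient.mk P).comp f
  let a : Nat.Primes → K := fun ℓ => fK (matGen _ ⟨ℓ, Set.notMem_empty _⟩)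
  have hne : ∃ v, v ≠ 0 ∧ v ∈ eigenSub I.model (↑(∅ : Finset ℕ) : Set ℕ) a := by
    rw [Finset.coe_empty]
    exact exists_eigenvector_family I ∅ fK a fun _ => rfl
  obtain ⟨ρ, hρ, hunr⟩ := exists_residual_of_eigenvector I ∅ a hne
  refine ⟨ρ.baseChangeAlong ψ, ?_, ?_⟩
  · intro ℓ hℓ hℓN hℓk A hA σ hσ
    have hd : ¬ ℓ ∣ N * p := by
      intro h
      rcases (Nat.Prime.dvd_mul hℓ).mp h with h | h
      · exact hℓN h
      · exact hℓk (by rw [(Nat.prime_dvd_prime_iff_eq hℓ hp).mp h, CharP.cast_eq_zero])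
    refine ⟨f (matGen _ ⟨⟨ℓ, hℓ⟩, Set.notMem_empty _⟩), hf _, ?_⟩
    let := ψ.toAlgebra
    show LinearMap.charpoly ((ρ.ρ σ).baseChange k) = _
    rw [LinearMap.charpoly_baseChange, hρ ℓ hℓ (Finset.notMem_empty ℓ) hd A hA σ hσ]
    simp only [Polynomial.map_add, Polynomial.map_sub, Polynomial.map_mul, Polynomial.map_pow,
      Polynomial.map_X, Polynomial.map_C, Polynomial.map_natCast, map_natCast,
      RingHom.algebraMap_toAlgebra]
    rfl
  · intro ℓ hℓ hd A hA σ hσ
    let := ψ.toAlgebra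
    show (ρ.ρ σ).baseChange k = 1
    rw [hunr ℓ hℓ hd A hA σ hσ, LinearMap.baseChange_one]

end Fermat.Agent.EigenRep

end
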