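import Fermat.Agent.Congruence.Assembly
import Fermat.Agent.Reduction.Igusa
import Fermat.Agent.HeckeJ0.TorsionModel
import Fermat.Agent.EigenRep.Inputs
import Fermat.Agent.EigenRep.Smooth

/-!
# The arithmetic inputs of the attached representations, for every level and prime
-/

set_option autoImplicit false

noncomputable section

namespace Fermat.Agent.EigenRep

open ModularCurve

local notation "Qbar" => AlgebraicClosure ℚ

variable (N p : ℕ) [NeZero N]

/-- Specialisations of `J₀(N)` at the primes not dividing the level. -/
theorem specializationExists (hcomm : HeckeOperatorsCommuteBar N) :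
    letI := heckeModuleBar N
    ∀ (_ : SMulCommClass (Qbar ≃ₐ[ℚ] Qbar) HeckeAlg (JZero N)),
      SpecializationExists (K := ℚ) (L := Qbar) N p (JZero N) :=
  Congruence.specializationExists_of_hecke_injective N p hcomm
    (fun ℓ _ _ _ => HeckeJ0.heckeInputsAlong N ℓ)
    fun _ hℓ hℓN _ hA _ hm _ hmz hz =>
      haveI := Fact.mk hℓ
      Reduction.eq_zero_of_reductionModL_eq_zero hA (Reduction.reductionFacts hℓN hA)
        (Reduction.reductionInputsModL hA (Reduction.reductionFacts hℓN hA)) hm hmz hz

/-- The Eichler–Shimura relations on `p`-power torsion. -/
theorem eichlerShimuraRelations : EichlerShimuraRelations N p :=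
  eichlerShimuraRelations_of_specialization (HeckeJ0.heckeOperatorsCommuteBar N)
    (HeckeJ0.heckeGaloisEquivariant N) (specializationExists N p (HeckeJ0.heckeOperatorsCommuteBar N))

/-- The inputs of the attached representations. -/
def repInputs [Fact p.Prime] : RepInputs N p where
  model := HeckeJ0.torsionHeckeModel N p
  equivariant := HeckeJ0.heckeGaloisEquivariant N
  smooth := jZeroSmooth N
  es := eichlerShimuraRelations N p
  dense := frobeniusDense

end Fermat.Agent.EigenRep
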