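import Mathlib.NumberTheory.Cyclotomic.CyclotomicCharacter
import Mathlib.Algebra.Field.GeomSum
import Mathlib.RingTheory.RootsOfUnity.AlgebraicallyClosed
import Fermat.Agent.Frobenius.Exists

/-!
# The `p`-adic cyclotomic character on the absolute Galois group of `ℚ`

Value at Frobenius elements, triviality on inertia away from `p`, and continuity.
-/

set_option autoImplicit false

noncomputable section

open scoped Pointwise

namespace Fermat.Agent.EigenRep

local notation "Qbar" => AlgebraicClosure ℚ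

variable (p : ℕ) [Fact p.Prime]

/-- The `p`-adic cyclotomic character of `Gal(ℚ̄/ℚ)`. -/
def epsilonPadic : (Qbar ≃ₐ[ℚ] Qbar) →* ℤ_[p]ˣ :=
  (cyclotomicCharacter Qbar p).comp (MulSemiringAction.toRingAut (Qbar ≃ₐ[ℚ] Qbar) Qbar)

/-- The cyclotomic character modulo `pⁿ`, as a natural number. -/
def epsilonNat (n : ℕ) (σ : Qbar ≃ₐ[ℚ] Qbar) : ℕ :=
  (PadicInt.toZModPow n (epsilonPadic p σ : ℤ_[p])).val

variable {p}

theorem hasEnoughRootsOfUnity_qbar (i : ℕ) : HasEnoughRootsOfUnity Qbar (p ^ i) := by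
  have : NeZero ((p ^ i : ℕ) : Qbar) :=
    ⟨by exact_mod_cast pow_ne_zero i (Fact.out : p.Prime).ne_zero⟩
  infer_instance

theorem epsilon_spec (σ : Qbar ≃ₐ[ℚ] Qbar) {n : ℕ} {t : Qbar} (ht : t ^ p ^ n = 1) :
    σ t = t ^ epsilonNat p n σ := by
  have := hasEnoughRootsOfUnity_qbar (p := p)
  exact cyclotomicCharacter.spec p (MulSemiringAction.toRingAut (Qbar ≃ₐ[ℚ] Qbar) Qbar σ) t ht

theorem exists_primitiveRoot (n : ℕ) : ∃ ζ : Qbar, IsPrimitiveRoot ζ (p ^ n) := by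
  have := hasEnoughRootsOfUnity_qbar (p := p) n
  exact HasEnoughRootsOfUnity.exists_primitiveRoot _ _

/-- The reduction of `εₚ(σ)` modulo `pⁿ` is determined by the action on a primitive root. -/
theorem toZModPow_epsilon_eq {σ : Qbar ≃ₐ[ℚ] Qbar} {n m : ℕ} {ζ : Qbar}
    (hζ : IsPrimitiveRoot ζ (p ^ n)) (h : σ ζ = ζ ^ m) :
    PadicInt.toZModPow n (epsilonPadic p σ : ℤ_[p]) = (m : ZMod (p ^ n)) := by
  have hne : NeZero (p ^ n) := ⟨pow_ne_zero n (Fact.out : p.Prime).ne_zero⟩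
  rw [epsilon_spec σ hζ.pow_eq_one, ← pow_mod_orderOf ζ m, ← hζ.eq_orderOf] at h
  have := hζ.pow_inj (ZMod.val_lt _) (Nat.mod_lt _ (Nat.pos_of_ne_zero hne.ne)) h
  rw [← ZMod.natCast_mod m (p ^ n), ← this]
  exact (ZMod.natCast_zmod_val _).symm

/-- A root of unity of order prime to the residue characteristic which is congruent to `1` is
equal to `1`. -/
theorem eq_one_of_residue_eq_one {L : Type*} [Field L] {A : ValuationSubring L} {m : ℕ}
    (hm : (m : IsLocalRing.ResidueField A) ≠ 0) {u : A} (hu : u ^ m = 1)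
    (h1 : IsLocalRing.residue A u = 1) : u = 1 := by
  by_contra hne
  have h : (∑ i ∈ Finset.range m, u ^ i) * (u - 1) = 0 := by rw [geom_sum_mul, hu, sub_self]
  rcases mul_eq_zero.mp h with h | h
  · apply hm
    have := congrArg (IsLocalRing.residue A) h
    simpa [h1] using this
  · exact hne (sub_eq_zero.mp h)

/-- If a decomposition element acts on the residue field by `x ↦ x ^ m` then `εₚ ≡ m`. -/
theorem toZModPow_epsilon_of_residue {ℓ : ℕ} (hℓ : ℓ.Prime) (hℓp : ℓ ≠ p)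
    {A : ValuationSubring Qbar} (hA : A.LiesOverPrime ℓ) {σ : Qbar ≃ₐ[ℚ] Qbar} {m : ℕ}
    (hσ : σ ∈ A.decompositionSubgroup ℚ)
    (h : ∀ x : IsLocalRing.ResidueField A,
      (⟨σ, hσ⟩ : A.decompositionSubgroup ℚ) • x = x ^ m) (n : ℕ) :
    PadicInt.toZModPow n (epsilonPadic p σ : ℤ_[p]) = (m : ZMod (p ^ n)) := by
  have hp : p.Prime := Fact.out
  obtain ⟨ζ, hζ⟩ := exists_primitiveRoot (p := p) n
  refine toZModPow_epsilon_eq hζ ?_
  have hint : IsIntegral ℤ ζ := hζ.isIntegral (pow_pos hp.pos n)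
  let z : A := ⟨ζ, Frobenius.mem_of_isIntegral A hint⟩
  have hz : z ^ p ^ n = 1 := Subtype.ext hζ.pow_eq_one
  have hchar := Frobenius.residueField_charP hℓ hA
  have hunit : IsUnit z := IsUnit.of_pow_eq_one hz (pow_ne_zero n hp.ne_zero)
  have hres : IsLocalRing.residue A ((⟨σ, hσ⟩ : A.decompositionSubgroup ℚ) • z) =
      IsLocalRing.residue A (z ^ m) := by
    rw [map_pow, ← h, IsLocalRing.ResidueField.residue_smul]
  obtain ⟨u, hu⟩ := hunit.pow m
  let w : A := ((⟨σ, hσ⟩ : A.decompositionSubgroup ℚ) • z) * (u⁻¹ : Aˣ)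
  have hw : w ^ p ^ n = 1 := by
    simp only [w, mul_pow, ← smul_pow', hz, smul_one, one_mul]
    rw [← Units.val_pow_eq_pow_val, inv_pow]
    have : u ^ p ^ n = 1 := Units.ext (by
      rw [Units.val_pow_eq_pow_val, hu, ← pow_mul, mul_comm, pow_mul, hz, one_pow, Units.val_one])
    rw [this, inv_one, Units.val_one]
  have hw1 : w = 1 := by
    refine eq_one_of_residue_eq_one ?_ hw ?_
    · rw [Nat.cast_pow]
      refine pow_ne_zero n fun h0 => ?_
      rw [CharP.cast_eq_zero_iff (IsLocalRing.ResidueField A) ℓ,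
        Nat.prime_dvd_prime_iff_eq hℓ hp] at h0
      exact hℓp h0
    · rw [map_mul, hres, ← hu, ← map_mul, Units.mul_inv, map_one]
  have h2 : (⟨σ, hσ⟩ : A.decompositionSubgroup ℚ) • z = z ^ m := by
    calc _ = w * u := by simp [w, mul_assoc]
      _ = z ^ m := by rw [hw1, one_mul, hu]
  exact congrArg Subtype.val h2

theorem toZModPow_epsilon_frobenius {ℓ : ℕ} (hℓ : ℓ.Prime) (hℓp : ℓ ≠ p)
    {A : ValuationSubring Qbar} (hA : A.LiesOverPrime ℓ) {σ : Qbar ≃ₐ[ℚ] Qbar}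
    (hσ : A.IsFrobeniusAt σ ℓ) (n : ℕ) :
    PadicInt.toZModPow n (epsilonPadic p σ : ℤ_[p]) = (ℓ : ZMod (p ^ n)) :=
  toZModPow_epsilon_of_residue hℓ hℓp hA hσ.mem_decompositionSubgroup hσ.smul_residue_eq n

/-- `εₚ(Frob_ℓ) = ℓ`. -/
theorem epsilon_frobenius {ℓ : ℕ} (hℓ : ℓ.Prime) (hℓp : ℓ ≠ p) {A : ValuationSubring Qbar}
    (hA : A.LiesOverPrime ℓ) {σ : Qbar ≃ₐ[ℚ] Qbar} (hσ : A.IsFrobeniusAt σ ℓ) :
    (epsilonPadic p σ : ℤ_[p]) = ℓ :=
  PadicInt.ext_of_toZModPow.mp fun n => by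
    rw [toZModPow_epsilon_frobenius hℓ hℓp hA hσ n, map_natCast]

/-- `εₚ` is trivial on inertia away from `p`. -/
theorem epsilon_inertia {q : ℕ} (hq : q.Prime) (hqp : q ≠ p) {A : ValuationSubring Qbar}
    (hA : A.LiesOverPrime q) {σ : Qbar ≃ₐ[ℚ] Qbar} (hσ : σ ∈ A.inertiaSubgroupIn ℚ) :
    epsilonPadic p σ = 1 := by
  obtain ⟨h, hx⟩ := Frobenius.mem_inertiaSubgroupIn_iff.mp hσ
  refine Units.ext (PadicInt.ext_of_toZModPow.mp fun n => ?_)
  rw [toZModPow_epsilon_of_residue (m := 1) hq hqp hA h (by simpa using hx) n, Units.val_one,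
    map_one, Nat.cast_one]

/-- Continuity: `εₚ mod pⁿ` factors through a number field. -/
theorem exists_level_epsilon (n : ℕ) :
    ∃ L : IntermediateField ℚ Qbar, FiniteDimensional ℚ L ∧
      ∀ σ : Qbar ≃ₐ[ℚ] Qbar, (∀ x ∈ L, σ x = x) →
        PadicInt.toZModPow n (epsilonPadic p σ : ℤ_[p]) = 1 := by
  obtain ⟨ζ, hζ⟩ := exists_primitiveRoot (p := p) n
  refine ⟨IntermediateField.adjoin ℚ {ζ}, IntermediateField.adjoin.finiteDimensional
    (hζ.isIntegral (pow_pos (Fact.out : p.Prime).pos n)).tower_top, fun σ h => ?_⟩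
  rw [toZModPow_epsilon_eq (m := 1) hζ
    (by rw [pow_one]; exact h ζ (IntermediateField.mem_adjoin_simple_self ℚ ζ)), Nat.cast_one]

end Fermat.Agent.EigenRep

end
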