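import Mathlib.LinearAlgebra.Matrix.Trace
import Mathlib.LinearAlgebra.Matrix.Charpoly.Coeff
import Mathlib.Data.Matrix.Basis
import Mathlib.Tactic

/-!
# Anti-involutions of the form `x ↦ τ x - x` on matrix algebras

If `x ↦ τ x • 1 - x` is anti-multiplicative on `Mₙ(K)` then `n ≤ 2`, and for `n = 2`
the functional `τ` is the trace.
-/

set_option autoImplicit false

namespace Fermat.Agent.EigenRep

open Matrix

variable {K : Type*} [Field K] {n : ℕ}

/-- Anti-multiplicativity of `x ↦ τ x • 1 - x`. -/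
def IsAntiMul (τ : Matrix (Fin n) (Fin n) K →ₗ[K] K) : Prop :=
  ∀ x y, τ (x * y) • (1 : Matrix (Fin n) (Fin n) K) - x * y =
    (τ y • 1 - y) * (τ x • 1 - x)

theorem IsAntiMul.sym {τ : Matrix (Fin n) (Fin n) K →ₗ[K] K} (h : IsAntiMul τ)
    (x y : Matrix (Fin n) (Fin n) K) :
    x * y + y * x = τ x • y + τ y • x + (τ (x * y) - τ x * τ y) • 1 := by
  have h' := h x y
  simp only [sub_mul, mul_sub, Algebra.smul_mul_assoc, Algebra.mul_smul_comm, one_mul, mul_one,
    smul_sub, smul_smul] at h'
  linear_combination (norm := module) -h'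

theorem IsAntiMul.apply_single_diag {τ : Matrix (Fin n) (Fin n) K →ₗ[K] K} (h : IsAntiMul τ)
    {i j : Fin n} (hij : i ≠ j) :
    τ (single i i 1) = 1 ∧ τ (single i j 1) = 0 := by
  have e := h.sym (single i i 1) (single i j 1)
  simp only [single_mul_single_same, single_mul_single_of_ne _ _ _ _ (Ne.symm hij), mul_one,
    add_zero] at e
  have hjj := congrFun (congrFun e j) j
  have hii := congrFun (congrFun e i) i
  have hij' := congrFun (congrFun e i) j
  simp [Matrix.single, hij, Ne.symm hij] at hjj hii hij'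
  refine ⟨?_, ?_⟩
  · exact hij'.symm
  · rw [← hjj] at hii
    simpa [Matrix.single] using hii.symm

theorem IsAntiMul.le_two {τ : Matrix (Fin n) (Fin n) K →ₗ[K] K} (h : IsAntiMul τ) : n ≤ 2 := by
  by_contra hn
  push Not at hn
  obtain ⟨m, rfl⟩ : ∃ m, n = m + 3 := ⟨n - 3, by omega⟩
  have h01 : (0 : Fin (m + 3)) ≠ 1 := by simp
  have h2 : ((2 : Fin (m + 3)) : ℕ) = 2 := Nat.mod_eq_of_lt (by omega)
  have h02 : (0 : Fin (m + 3)) ≠ 2 := by
    intro h; rw [Fin.ext_iff, h2] at h; simp at h
  have h12 : (1 : Fin (m + 3)) ≠ 2 := by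
    intro h; rw [Fin.ext_iff, h2] at h; simp at h
  have e := h.sym (single 0 0 1) (single 1 1 1)
  simp only [single_mul_single_of_ne _ _ _ _ h01, single_mul_single_of_ne _ _ _ _ h01.symm,
    (h.apply_single_diag h01).1, (h.apply_single_diag h12).1, one_smul, add_zero] at e
  have h22 := congrFun (congrFun e 2) 2
  have h00 := congrFun (congrFun e 0) 0
  simp [Matrix.single, h02, h12] at h22 h00

theorem IsAntiMul.eq_trace {τ : Matrix (Fin 2) (Fin 2) K →ₗ[K] K} (h : IsAntiMul τ)
    (x : Matrix (Fin 2) (Fin 2) K) : τ x = x.trace := by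
  have h01 : (0 : Fin 2) ≠ 1 := by decide
  have a := h.apply_single_diag h01
  have b := h.apply_single_diag h01.symm
  conv_lhs => rw [matrix_eq_sum_single x]
  simp only [Fin.sum_univ_two, Matrix.trace, Matrix.diag]
  have e : ∀ (i j : Fin 2) (c : K), τ (single i j c) = c * τ (single i j 1) := fun i j c => by
    rw [← smul_eq_mul, ← map_smul, smul_single, smul_eq_mul, mul_one]
  simp [e _ _ (x 0 0), e _ _ (x 0 1), e _ _ (x 1 0), e _ _ (x 1 1), a.1, a.2, b.1, b.2]

/-- The quadratic relation with the trace as linear coefficient determines the characteristic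
polynomial in dimension two. -/
theorem charpoly_eq_of_relation {M : Matrix (Fin 2) (Fin 2) K} {e : K}
    (h : M * M - M.trace • M + e • 1 = 0) :
    M.charpoly = Polynomial.X ^ 2 - Polynomial.C M.trace * Polynomial.X + Polynomial.C e := by
  have hM : M.det = e := by
    have h00 := congrFun (congrFun h 0) 0
    simp [Matrix.mul_apply, Fin.sum_univ_two, Matrix.trace_fin_two] at h00
    rw [Matrix.det_fin_two]
    linear_combination -h00
  rw [Matrix.charpoly_fin_two, hM]

end Fermat.Agent.EigenRep
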