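import Fermat.Agent.EigenRep.AttachedResidual
import Fermat.Agent.EllTorsion.Galois
import Fermat.Agent.MultRed.Frey
import Fermat.Prelude.Def_FreyPackage_EigenformResidualAttachment
import Mathlib.FieldTheory.Galois.Basic
import Mathlib.LinearAlgebra.Trace
import Mathlib.FieldTheory.Normal.Closure

/-!
# Residual attachment for Frey packages (S42), from the residual representations (S29)
-/

set_option autoImplicit false

noncomputable section

namespace Fermat.Agent.EigenRep

open Polynomial WeierstrassCurve.Affine.Point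

local notation "Qbar" => AlgebraicClosure ℚ

/-- Trace and determinant from the characteristic polynomial `X² - aX + e`. -/
theorem trace_det_of_charpoly {K : Type*} [Field K] {V : Type*} [AddCommGroup V] [Module K V]
    [Module.Finite K V] {f : Module.End K V} {a e : K} (h2 : Module.finrank K V = 2)
    (h : LinearMap.charpoly f = X ^ 2 - C a * X + C e) :
    LinearMap.trace K V f = a ∧ LinearMap.det f = e := by
  let b := Module.finBasisOfFinrankEq K V h2
  rw [← LinearMap.charpoly_toMatrix f b, Matrix.charpoly_fin_two] at h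
  rw [LinearMap.trace_eq_matrix_trace K b, ← LinearMap.det_toMatrix b f]
  have h0 := congrArg (fun q : K[X] => q.coeff 0) h
  have h1 := congrArg (fun q : K[X] => q.coeff 1) h
  simp at h0 h1
  exact ⟨h1, by simpa using h0⟩

theorem eigenformResidualAttachmentAt_of_residual (P : FreyPackage) {M : ℕ}
    (h29 : ∀ {g : CuspForm (CongruenceSubgroup.Gamma0 M) 2}, g.IsNormalizedEigenform →
      ∀ {k : Type} [Field k] [CharP k P.p] (φ : integralClosure ℤ ℂ →+* k),
        ∃ ρ : ResidualGaloisRep k, ρ.IsAttachedTo g φ) :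
    P.EigenformResidualAttachmentAt M := by
  intro g hg 𝔪 h𝔪 hp𝔪
  let K := integralClosure ℤ ℂ ⧸ 𝔪
  let : Field K := Ideal.Quotient.field 𝔪
  have : Fact P.p.Prime := ⟨P.pp⟩
  have : CharP K P.p := by
    refine (CharP.charP_iff_prime_eq_zero P.pp).mpr ?_
    rw [← map_natCast (Ideal.Quotient.mk 𝔪)]
    exact Ideal.Quotient.eq_zero_iff_mem.mpr hp𝔪
  let : Algebra (ZMod P.p) K := ZMod.algebra K P.p
  obtain ⟨ρ, hρ⟩ := h29 hg (Ideal.Quotient.mk 𝔪)
  have hell : P.freyCurve.IsElliptic := by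
    rw [WeierstrassCurve.isElliptic_iff, isUnit_iff_ne_zero, ← MultRed.freyCurveInt_map,
      WeierstrassCurve.map_Δ, map_ne_zero_iff _ (Int.cast_injective (α := ℚ))]
    exact MultRed.freyCurveInt_Δ_ne_zero P
  obtain ⟨L₁, h₁, H₁⟩ :=
    EllTorsion.galoisFactorsThroughFiniteLevel_galoisRepModuleEnd P.freyCurve P.pp.ne_zero
  obtain ⟨L₂, h₂, H₂⟩ := ρ.factorsThroughFiniteLevel
  have := IntermediateField.finiteDimensional_sup L₁ L₂
  let F := IntermediateField.normalClosure ℚ ↥(L₁ ⊔ L₂) Qbar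
  have : Algebra.IsAlgebraic ℚ Qbar := AlgebraicClosure.isAlgebraic ℚ
  have : Normal ℚ Qbar := normal_iff.mpr fun x =>
    ⟨Algebra.IsIntegral.isIntegral x, IsAlgClosed.splits _⟩
  have : Normal ℚ F := normalClosure.normal ℚ ↥(L₁ ⊔ L₂) Qbar
  have : FiniteDimensional ℚ F := normalClosure.is_finiteDimensional ℚ ↥(L₁ ⊔ L₂) Qbar
  have hle : L₁ ⊔ L₂ ≤ F := IntermediateField.le_normalClosure _
  refine ⟨K, inferInstance, inferInstance, ρ.V, inferInstance, inferInstance, ρ.ρ,
    Ideal.Quotient.mk 𝔪, F, inferInstance, NumberField.of_module_finite ℚ F, IsGalois.mk,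
    inferInstance, inferInstance, ?_, ρ.finrank_eq, ?_, ?_, ?_⟩
  · rw [Ideal.mk_ker]
  · intro σ hσ
    have hσ : ∀ x ∈ F, σ x = x := fun x hx => by
      have h1 := AlgEquiv.restrictNormal_commutes σ F ⟨x, hx⟩
      rw [show σ.restrictNormal F = 1 from MonoidHom.mem_ker.mp hσ] at h1
      exact h1.symm
    exact ⟨MonoidHom.mem_ker.mpr (H₁ σ fun x hx => hσ x (hle (le_sup_left (a := L₁) (b := L₂) hx))),
      MonoidHom.mem_ker.mpr (H₂ σ fun x hx => hσ x (hle (le_sup_right (a := L₁) (b := L₂) hx)))⟩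
  · intro ℓ hℓ hM hp A hA τ hτ
    have hk : (ℓ : K) ≠ 0 := fun h => hp ((Nat.prime_dvd_prime_iff_eq P.pp hℓ).mp
      ((CharP.cast_eq_zero_iff K P.p ℓ).mp h)).symm
    obtain ⟨a, ha, hcp⟩ := hρ ℓ hℓ hM hk A hA τ hτ
    exact ⟨a, ha, (trace_det_of_charpoly ρ.finrank_eq hcp).1⟩
  · intro ℓ hℓ hM hp A hA τ hτ
    have hk : (ℓ : K) ≠ 0 := fun h => hp ((Nat.prime_dvd_prime_iff_eq P.pp hℓ).mp
      ((CharP.cast_eq_zero_iff K P.p ℓ).mp h)).symm
    obtain ⟨a, -, hcp⟩ := hρ ℓ hℓ hM hk A hA τ hτ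
    exact (trace_det_of_charpoly ρ.finrank_eq hcp).2

end Fermat.Agent.EigenRep

end
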