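import Fermat.Agent.EigenRep.TorsionAction
import Fermat.Agent.EigenRep.Cyclotomic
import Fermat.Agent.EigenRep.Eigenvector

/-!
# Hecke eigenspaces over a coefficient ring

The Galois action on the simultaneous eigenvectors of the Hecke matrices with coefficients in a
ring receiving `ℤ_p`.
-/

set_option autoImplicit false

noncomputable section

namespace Fermat.Agent.EigenRep

open ModularCurve Matrix

local notation "Qbar" => AlgebraicClosure ℚ

variable {N p : ℕ} [NeZero N] [Fact p.Prime]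

/-- The Galois group element `g` agrees with `σ` on `L`, hence differs by something trivial on
`L`. -/
theorem inv_mul_fixes {L : IntermediateField ℚ Qbar} {g σ : Qbar ≃ₐ[ℚ] Qbar}
    (h : ∀ a ∈ L, σ a = g a) : ∀ a ∈ L, (σ⁻¹ * g) a = a := fun a ha => by
  rw [AlgEquiv.mul_apply, ← h a ha]
  exact σ.symm_apply_apply a

/-- A common level for the torsion and the roots of unity modulo `pⁿ`. -/
theorem exists_level (I : RepInputs N p) (n : ℕ) :
    ∃ L : IntermediateField ℚ Qbar, FiniteDimensional ℚ L ∧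
      ∀ σ : Qbar ≃ₐ[ℚ] Qbar, (∀ a ∈ L, σ a = a) →
        matMod p I.model.d n (galMat I.model σ) = 1 ∧
          PadicInt.toZModPow n (epsilonPadic p σ : ℤ_[p]) = 1 := by
  obtain ⟨L₁, h₁, H₁⟩ := exists_level_galMat I.model I.smooth n
  obtain ⟨L₂, h₂, H₂⟩ := exists_level_epsilon (p := p) n
  refine ⟨L₁ ⊔ L₂, IntermediateField.finiteDimensional_sup L₁ L₂, fun σ hσ => ⟨?_, ?_⟩⟩
  · exact H₁ σ fun a ha => hσ a (le_sup_left (a := L₁) (b := L₂) ha)
  · exact H₂ σ fun a ha => hσ a (le_sup_right (a := L₁) (b := L₂) ha)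

/-- Chebotarev: every `g` is congruent modulo `pⁿ` to a Frobenius element outside a finite set. -/
theorem exists_frobenius_congr (I : RepInputs N p) (n : ℕ) (g : Qbar ≃ₐ[ℚ] Qbar) (S : Finset ℕ) :
    ∃ ℓ : ℕ, ∃ _ : ℓ.Prime, ℓ ∉ S ∧ ¬ ℓ ∣ N * p ∧ ∃ A : ValuationSubring Qbar,
      A.LiesOverPrime ℓ ∧ ∃ σ : Qbar ≃ₐ[ℚ] Qbar, A.IsFrobeniusAt σ ℓ ∧
        matMod p I.model.d n (galMat I.model g) = matMod p I.model.d n (galMat I.model σ) ∧
        PadicInt.toZModPow n (epsilonPadic p g : ℤ_[p]) =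
          PadicInt.toZModPow n (epsilonPadic p σ : ℤ_[p]) := by
  obtain ⟨L, hL, H⟩ := exists_level I n
  obtain ⟨ℓ, hℓ, hℓS, A, hA, σ, hσ, hg⟩ := I.dense L hL g (S ∪ (N * p).primeFactors)
  rw [Finset.mem_union, not_or] at hℓS
  refine ⟨ℓ, hℓ, hℓS.1, fun h => hℓS.2 (Nat.mem_primeFactors.mpr ⟨hℓ, h,
    mul_ne_zero (NeZero.ne N) (Fact.out : p.Prime).ne_zero⟩), A, hA, σ, hσ, ?_⟩
  obtain ⟨h₁, h₂⟩ := H _ (inv_mul_fixes hg)
  have hgσ : g = σ * (σ⁻¹ * g) := (mul_inv_cancel_left σ g).symm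
  constructor
  · rw [hgσ, map_mul, map_mul, h₁, mul_one]
  · rw [hgσ, map_mul, Units.val_mul, map_mul, h₂, mul_one]

variable (M : TorsionHeckeModel N p) {R : Type*} [CommRing R] (ι : ℤ_[p] →+* R)

/-- The Galois action on `R^d`. -/
def galEnd : (Qbar ≃ₐ[ℚ] Qbar) →* Module.End R (Fin M.d → R) :=
  ((Matrix.toLinAlgEquiv' : _ ≃ₐ[R] _).toAlgHom.toMonoidHom.comp
    ι.mapMatrix.toMonoidHom).comp (galMat M)

theorem galEnd_apply (σ : Qbar ≃ₐ[ℚ] Qbar) (v : Fin M.d → R) :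
    galEnd M ι σ v = (galMat M σ).map ι *ᵥ v :=
  rfl

/-- The simultaneous eigenvectors with eigenvalues `a` at the primes outside `S`. -/
def eigenSub (S : Set ℕ) (a : Nat.Primes → R) : Submodule R (Fin M.d → R) :=
  ⨅ (ℓ : Nat.Primes) (_ : (ℓ : ℕ) ∉ S),
    LinearMap.ker (Matrix.toLin' ((M.T ℓ).map (Int.cast : ℤ → R)) - a ℓ • LinearMap.id)

omit [Fact p.Prime] in
theorem mem_eigenSub {S : Set ℕ} {a : Nat.Primes → R} {v : Fin M.d → R} :
    v ∈ eigenSub M S a ↔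
      ∀ ℓ : Nat.Primes, (ℓ : ℕ) ∉ S → (M.T ℓ).map (Int.cast : ℤ → R) *ᵥ v = a ℓ • v := by
  simp [eigenSub, sub_eq_zero]

theorem map_heckeMat (ℓ : Nat.Primes) :
    (heckeMat M ℓ).map ι = (M.T ℓ).map (Int.cast : ℤ → R) := by
  ext i j; simp [heckeMat]

theorem galEnd_mem_eigenSub (h : HeckeGaloisEquivariant N) {S : Set ℕ} {a : Nat.Primes → R}
    (σ : Qbar ≃ₐ[ℚ] Qbar) {v : Fin M.d → R} (hv : v ∈ eigenSub M S a) :
    galEnd M ι σ v ∈ eigenSub M S a := by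
  rw [mem_eigenSub] at hv ⊢
  intro ℓ hℓ
  have := congrArg ι.mapMatrix (galMat_commute M h σ ℓ)
  rw [map_mul, map_mul, RingHom.mapMatrix_apply, RingHom.mapMatrix_apply, map_heckeMat] at this
  rw [galEnd_apply, mulVec_mulVec, ← this, ← mulVec_mulVec, hv ℓ hℓ, mulVec_smul]

/-- Frobenius satisfies its quadratic polynomial on the eigenvectors. -/
theorem galEnd_frobenius (h : EichlerShimuraRelations N p) {S : Set ℕ} {a : Nat.Primes → R}
    (heq : HeckeGaloisEquivariant N) {ℓ : ℕ} (hℓ : ℓ.Prime) (hℓS : ℓ ∉ S)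
    (hℓNp : ¬ ℓ ∣ N * p) {A : ValuationSubring Qbar} (hA : A.LiesOverPrime ℓ)
    {σ : Qbar ≃ₐ[ℚ] Qbar} (hσ : A.IsFrobeniusAt σ ℓ) {v : Fin M.d → R}
    (hv : v ∈ eigenSub M S a) :
    galEnd M ι σ (galEnd M ι σ v) - a ⟨ℓ, hℓ⟩ • galEnd M ι σ v + (ℓ : R) • v = 0 := by
  have hw := (mem_eigenSub M).mp (galEnd_mem_eigenSub M ι heq σ hv) ⟨ℓ, hℓ⟩ hℓS
  have key := congrArg ι.mapMatrix (galMat_frobenius M h hℓ hℓNp hA hσ)
  rw [map_add, map_sub, map_mul, map_mul, map_natCast, map_zero, RingHom.mapMatrix_apply,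
    RingHom.mapMatrix_apply] at key
  have hT := map_heckeMat M ι ⟨ℓ, hℓ⟩
  generalize (heckeMat M ⟨ℓ, hℓ⟩).map ι = B at key hT
  subst hT
  have key' := congrArg (· *ᵥ v) key
  simp only [add_mulVec, sub_mulVec, ← mulVec_mulVec, natCast_mulVec, zero_mulVec,
    ← galEnd_apply] at key'
  rwa [hw] at key'

theorem galEnd_inertia (h : EichlerShimuraRelations N p) {q : ℕ} (hq : q.Prime)
    (hqNp : ¬ q ∣ N * p) {A : ValuationSubring Qbar} (hA : A.LiesOverPrime q)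
    {σ : Qbar ≃ₐ[ℚ] Qbar} (hσ : σ ∈ A.inertiaSubgroupIn ℚ) : galEnd M ι σ = 1 := by
  show Matrix.toLinAlgEquiv' ((galMat M σ).map ι) = 1
  rw [galMat_inertia M h hq hqNp hA hσ, Matrix.map_one _ (map_zero ι) (map_one ι), map_one]

end Fermat.Agent.EigenRep

end
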