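import Mathlib.NumberTheory.Padics.RingHoms
import Mathlib.Data.Matrix.Mul
import Mathlib.Tactic

/-!
# Compatible systems of matrices modulo `pⁿ`

A compatible system of homomorphisms `G →* M_d(ℤ/pⁿ)` comes from one into `M_d(ℤ_p)`.
-/

set_option autoImplicit false

noncomputable section

namespace Fermat.Agent.EigenRep

variable {p : ℕ} [Fact p.Prime]

/-- A compatible system of residues comes from a `p`-adic integer. -/
theorem exists_toZModPow_eq (a : ∀ n : ℕ, ZMod (p ^ n))
    (ha : ∀ n, ZMod.castHom (pow_dvd_pow p n.le_succ) (ZMod (p ^ n)) (a (n + 1)) = a n) :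
    ∃ z : ℤ_[p], ∀ n, PadicInt.toZModPow n z = a n := by
  have hne : ∀ n, NeZero (p ^ n) := fun n => ⟨pow_ne_zero n (Fact.out : p.Prime).ne_zero⟩
  have hdvd : ∀ i, (p : ℤ) ^ i ∣ ((a (i + 1)).val : ℤ) - ((a i).val : ℤ) := by
    intro i
    have : ((((a (i + 1)).val : ℤ) - ((a i).val : ℤ) : ℤ) : ZMod (p ^ i)) = 0 := by
      have h := ha i
      rw [ZMod.castHom_apply, ← ZMod.natCast_val] at h
      push_cast
      rw [h, ZMod.natCast_zmod_val, sub_self]
    exact_mod_cast (ZMod.intCast_zmod_eq_zero_iff_dvd _ _).mp this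
  refine ⟨PadicInt.ofIntSeq (fun i => ((a i).val : ℤ))
    (PadicInt.isCauSeq_padicNorm_of_pow_dvd_sub (fun i => ((a i).val : ℤ)) p hdvd), fun n => ?_⟩
  rw [PadicInt.toZModPow_ofIntSeq_of_pow_dvd_sub (fun i => ((a i).val : ℤ)) p hdvd n]
  simp

variable {d : ℕ}

/-- Reduction of matrices modulo `pⁿ`. -/
def matMod (p d n : ℕ) [Fact p.Prime] :
    Matrix (Fin d) (Fin d) ℤ_[p] →+* Matrix (Fin d) (Fin d) (ZMod (p ^ n)) :=
  (PadicInt.toZModPow n).mapMatrix

theorem matMod_apply (n : ℕ) (m : Matrix (Fin d) (Fin d) ℤ_[p]) (i j : Fin d) :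
    matMod p d n m i j = PadicInt.toZModPow n (m i j) :=
  rfl

/-- A `p`-adic matrix is determined by its reductions. -/
theorem matMod_ext {m m' : Matrix (Fin d) (Fin d) ℤ_[p]}
    (h : ∀ n, matMod p d n m = matMod p d n m') : m = m' := by
  ext i j
  exact PadicInt.ext_of_toZModPow.mp fun n => congr($(h n) i j)

/-- A compatible system of matrix representations has a `p`-adic limit. -/
theorem exists_monoidHom_matMod {G : Type*} [Monoid G]
    (r : ∀ n : ℕ, G →* Matrix (Fin d) (Fin d) (ZMod (p ^ n)))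
    (hr : ∀ n g i j, ZMod.castHom (pow_dvd_pow p n.le_succ) (ZMod (p ^ n)) (r (n + 1) g i j) =
      r n g i j) :
    ∃ R : G →* Matrix (Fin d) (Fin d) ℤ_[p], ∀ n g, matMod p d n (R g) = r n g := by
  choose z hz using fun g i j => exists_toZModPow_eq (fun n => r n g i j) (fun n => hr n g i j)
  let R : G → Matrix (Fin d) (Fin d) ℤ_[p] := fun g => Matrix.of (z g)
  have hR : ∀ n g, matMod p d n (R g) = r n g := fun n g => by
    ext i j; exact hz g i j n
  refine ⟨{ toFun := R, map_one' := ?_, map_mul' := ?_ }, hR⟩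
  · exact matMod_ext fun n => by rw [hR, map_one, map_one]
  · exact fun g h => matMod_ext fun n => by rw [hR, map_mul, map_mul, hR, hR]

end Fermat.Agent.EigenRep

end
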