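import Fermat.Agent.EigenRep.Interface
import Fermat.Agent.EigenRep.PadicMatrix

/-!
# The Galois action on the torsion of `J₀(N)` as matrices

From a `TorsionHeckeModel` we obtain `Gal(ℚ̄/ℚ) →* M_d(ℤ_p)`, commuting with the Hecke matrices,
satisfying the Eichler–Shimura relation and trivial on inertia away from `Np`.
-/

set_option autoImplicit false

noncomputable section

namespace Fermat.Agent.EigenRep

open ModularCurve AlgebraicCurve Matrix

local notation "Qbar" => AlgebraicClosure ℚ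
local notation "Jtors" N:max n:max => Pic0.torsion (AlgebraicClosure ℚ) (modularFunctionFieldBar N) n

/-- The consequences of the congruence relation used for the representations: on `p`-power
torsion, inertia away from `Np` is trivial and Frobenius satisfies `F² - T F + ℓ = 0`. -/
structure EichlerShimuraRelations (N p : ℕ) [NeZero N] : Prop where
  inertia : ∀ ℓ : ℕ, ℓ.Prime → ¬ ℓ ∣ N * p → ∀ A : ValuationSubring Qbar, A.LiesOverPrime ℓ →
    ∀ σ ∈ A.inertiaSubgroupIn ℚ, ∀ x : JZero N, (∃ n : ℕ, p ^ n • x = 0) → σ • x = x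
  frobenius : ∀ (ℓ : ℕ) (hℓ : ℓ.Prime), ¬ ℓ ∣ N * p → ∀ A : ValuationSubring Qbar,
    A.LiesOverPrime ℓ → ∀ σ : Qbar ≃ₐ[ℚ] Qbar, A.IsFrobeniusAt σ ℓ →
      ∀ x : JZero N, (∃ n : ℕ, p ^ n • x = 0) →
        σ • σ • x - heckeOperatorBar N ⟨ℓ, hℓ⟩ (σ • x) + ℓ • x = 0

/-- All the inputs used for the attached representations at level `N`, prime `p`. -/
structure RepInputs (N p : ℕ) [NeZero N] where
  /-- the Hecke module model -/
  model : TorsionHeckeModel N p
  equivariant : HeckeGaloisEquivariant N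
  smooth : JZeroSmooth N
  es : EichlerShimuraRelations N p
  dense : FrobeniusDense

variable {N p : ℕ} [NeZero N]

omit [NeZero N] in
theorem exists_pow_nsmul_eq_zero {n : ℕ} (x : Jtors N (p ^ n)) :
    ∃ m : ℕ, p ^ m • (x : JZero N) = 0 :=
  ⟨n, by rw [← natCast_zsmul]; exact Pic0.mem_torsion.mp x.2⟩

/-- The Hecke operator on torsion. -/
def heckeTors (n : ℕ) (ℓ : Nat.Primes) (x : Jtors N n) : Jtors N n :=
  ⟨heckeOperatorBar N ℓ x, by
    rw [Pic0.mem_torsion, ← map_zsmul, Pic0.mem_torsion.mp x.2, map_zero]⟩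

/-- Multiplication by `p` from `pⁿ⁺¹`-torsion to `pⁿ`-torsion. -/
def mulTors (n : ℕ) (x : Jtors N (p ^ (n + 1))) : Jtors N (p ^ n) :=
  ⟨p • (x : JZero N), by
    rw [Pic0.mem_torsion, ← natCast_zsmul (x : JZero N) p, smul_smul, ← Nat.cast_mul, ← pow_succ]
    exact Pic0.mem_torsion.mp x.2⟩

section Generic

variable {R V : Type*} [CommRing R] [AddCommGroup V] [Module R V] {d : ℕ}

/-- The matrix of a conjugated endomorphism. -/
theorem toMatrix_conj_mulVec (e : V ≃ₗ[R] (Fin d → R)) (f : Module.End R V) (x : V) :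
    LinearMap.toMatrix' (e.conjAlgEquiv R f) *ᵥ e x = e (f x) := by
  rw [LinearMap.toMatrix'_mulVec]
  simp [LinearEquiv.conjAlgEquiv_apply]

omit [Module R V] in
/-- A quadratic relation transported to matrices along an additive equivalence. -/
theorem relation_of_equiv (e : V ≃+ (Fin d → R)) (L B : Matrix (Fin d) (Fin d) R) (f t : V → V)
    (hL : ∀ x, L *ᵥ e x = e (f x)) (hB : ∀ x, B *ᵥ e x = e (t x)) (ℓ : ℕ)
    (h : ∀ x, f (f x) - t (f x) + ℓ • x = 0) :
    L * L - B * L + (ℓ : Matrix (Fin d) (Fin d) R) = 0 :=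
  Matrix.ext_of_mulVec_single fun j => by
    obtain ⟨x, hx⟩ := e.surjective (Pi.single j 1)
    rw [← hx, add_mulVec, sub_mulVec, ← mulVec_mulVec, ← mulVec_mulVec, hL, hL, hB,
      natCast_mulVec, zero_mulVec, Nat.cast_smul_eq_nsmul, ← map_nsmul, ← map_sub, ← map_add, h,
      map_zero]

end Generic

variable (M : TorsionHeckeModel N p)

/-- `M.e n` as a linear equivalence. -/
def levelEquiv (n : ℕ) : Jtors N (p ^ n) ≃ₗ[ZMod (p ^ n)] (Fin M.d → ZMod (p ^ n)) :=
  (M.e n).toLinearEquiv fun c x => ZMod.map_smul (M.e n).toAddMonoidHom c x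

/-- The Galois action on `J₀(N)[pⁿ]` in matrices. -/
def levelMat (n : ℕ) : (Qbar ≃ₐ[ℚ] Qbar) →* Matrix (Fin M.d) (Fin M.d) (ZMod (p ^ n)) :=
  ((LinearMap.toMatrixAlgEquiv' : _ ≃ₐ[ZMod (p ^ n)] _).toAlgHom.toMonoidHom.comp
    ((levelEquiv M n).conjAlgEquiv (ZMod (p ^ n))).toAlgHom.toMonoidHom).comp
    (JZero.torsionGaloisRep N (p ^ n))

theorem levelMat_mulVec (n : ℕ) (σ : Qbar ≃ₐ[ℚ] Qbar) (x : Jtors N (p ^ n)) :
    levelMat M n σ *ᵥ M.e n x = M.e n (JZero.torsionGaloisRep N (p ^ n) σ x) :=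
  toMatrix_conj_mulVec (levelEquiv M n) (JZero.torsionGaloisRep N (p ^ n) σ) x

theorem mat_ext {n : ℕ} {A B : Matrix (Fin M.d) (Fin M.d) (ZMod (p ^ n))}
    (h : ∀ x, A *ᵥ M.e n x = B *ᵥ M.e n x) : A = B :=
  Matrix.ext_of_mulVec_single fun j => by simpa using h ((M.e n).symm (Pi.single j 1))

theorem levelMat_compat (n : ℕ) (σ : Qbar ≃ₐ[ℚ] Qbar) (i j : Fin M.d) :
    ZMod.castHom (pow_dvd_pow p n.le_succ) (ZMod (p ^ n)) (levelMat M (n + 1) σ i j) =
      levelMat M n σ i j := by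
  let c := ZMod.castHom (pow_dvd_pow p n.le_succ) (ZMod (p ^ n))
  have key : (levelMat M (n + 1) σ).map c = levelMat M n σ := by
    refine mat_ext M fun y => ?_
    choose v hv using fun k =>
      ZMod.castHom_surjective (pow_dvd_pow p n.le_succ) (M.e n y k)
    let x := (M.e (n + 1)).symm v
    have hy : mulTors n x = y := (M.e n).injective (funext fun k => by
      rw [M.e_compat n x _ rfl k, AddEquiv.apply_symm_apply, hv k])
    have hσ : ((JZero.torsionGaloisRep N (p ^ n) σ (mulTors n x) : Jtors N (p ^ n)) : JZero N) =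
        p • ((JZero.torsionGaloisRep N (p ^ (n + 1)) σ x : Jtors N (p ^ (n + 1))) : JZero N) := by
      rw [JZero.coe_torsionGaloisRep_apply, JZero.coe_torsionGaloisRep_apply]
      exact (DistribSMul.toAddMonoidHom (JZero N) σ).map_nsmul p x
    have hcv : c ∘ v = M.e n y := funext hv
    funext k
    rw [← hcv, ← RingHom.map_mulVec c, show v = M.e (n + 1) x from
      ((M.e (n + 1)).apply_symm_apply v).symm, levelMat_mulVec,
      show (c ∘ M.e (n + 1) x) = M.e n y by rw [← hcv]; congr 1; exact (M.e (n + 1)).apply_symm_apply v,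
      levelMat_mulVec, ← hy]
    exact (M.e_compat n _ _ hσ k).symm
  exact congr($key i j)

variable [Fact p.Prime]

/-- The `p`-adic matrix representation on the torsion of `J₀(N)`. -/
def galMat : (Qbar ≃ₐ[ℚ] Qbar) →* Matrix (Fin M.d) (Fin M.d) ℤ_[p] :=
  (exists_monoidHom_matMod (levelMat M) (levelMat_compat M)).choose

theorem matMod_galMat (n : ℕ) (σ : Qbar ≃ₐ[ℚ] Qbar) :
    matMod p M.d n (galMat M σ) = levelMat M n σ :=
  (exists_monoidHom_matMod (levelMat M) (levelMat_compat M)).choose_spec n σ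

/-- The Hecke matrices over `ℤ_p`. -/
def heckeMat (ℓ : Nat.Primes) : Matrix (Fin M.d) (Fin M.d) ℤ_[p] :=
  (M.T ℓ).map (Int.cast : ℤ → ℤ_[p])

theorem matMod_heckeMat (n : ℕ) (ℓ : Nat.Primes) :
    matMod p M.d n (heckeMat M ℓ) = (M.T ℓ).map (Int.cast : ℤ → ZMod (p ^ n)) := by
  ext i j
  simp [matMod_apply, heckeMat]

theorem hecke_mulVec (n : ℕ) (ℓ : Nat.Primes) (x : Jtors N (p ^ n)) :
    matMod p M.d n (heckeMat M ℓ) *ᵥ M.e n x = M.e n (heckeTors (p ^ n) ℓ x) := by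
  rw [matMod_heckeMat]; exact (M.e_hecke n ℓ x _ rfl).symm

theorem galMat_commute (h : HeckeGaloisEquivariant N) (σ : Qbar ≃ₐ[ℚ] Qbar) (ℓ : Nat.Primes) :
    galMat M σ * heckeMat M ℓ = heckeMat M ℓ * galMat M σ := by
  refine matMod_ext fun n => mat_ext M fun x => ?_
  rw [map_mul, map_mul, matMod_galMat, ← mulVec_mulVec, ← mulVec_mulVec, hecke_mulVec,
    levelMat_mulVec, levelMat_mulVec, hecke_mulVec]
  congr 1
  exact Subtype.ext (h σ ℓ x).symm

theorem galMat_frobenius (h : EichlerShimuraRelations N p) {ℓ : ℕ} (hℓ : ℓ.Prime)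
    (hℓNp : ¬ ℓ ∣ N * p) {A : ValuationSubring Qbar} (hA : A.LiesOverPrime ℓ)
    {σ : Qbar ≃ₐ[ℚ] Qbar} (hσ : A.IsFrobeniusAt σ ℓ) :
    galMat M σ * galMat M σ - heckeMat M ⟨ℓ, hℓ⟩ * galMat M σ +
      (ℓ : Matrix (Fin M.d) (Fin M.d) ℤ_[p]) = 0 := by
  refine matMod_ext fun n => ?_
  have key := relation_of_equiv (M.e n) (levelMat M n σ) (matMod p M.d n (heckeMat M ⟨ℓ, hℓ⟩))
    (JZero.torsionGaloisRep N (p ^ n) σ) (heckeTors (p ^ n) ⟨ℓ, hℓ⟩)
    (levelMat_mulVec M n σ) (hecke_mulVec M n ⟨ℓ, hℓ⟩) ℓ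
    (fun x => Subtype.ext (h.frobenius ℓ hℓ hℓNp A hA σ hσ x (exists_pow_nsmul_eq_zero x)))
  rw [map_add, map_sub, map_mul, map_mul, map_natCast, map_zero, matMod_galMat]
  exact key

theorem galMat_inertia (h : EichlerShimuraRelations N p) {ℓ : ℕ} (hℓ : ℓ.Prime)
    (hℓNp : ¬ ℓ ∣ N * p) {A : ValuationSubring Qbar} (hA : A.LiesOverPrime ℓ)
    {σ : Qbar ≃ₐ[ℚ] Qbar} (hσ : σ ∈ A.inertiaSubgroupIn ℚ) : galMat M σ = 1 := by
  refine matMod_ext fun n => mat_ext M fun x => ?_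
  rw [map_one, matMod_galMat, one_mulVec, levelMat_mulVec]
  congr 1
  exact Subtype.ext (h.inertia ℓ hℓ hℓNp A hA σ hσ x (exists_pow_nsmul_eq_zero x))

theorem exists_level_galMat (h : JZeroSmooth N) (n : ℕ) :
    ∃ L : IntermediateField ℚ Qbar, FiniteDimensional ℚ L ∧
      ∀ σ : Qbar ≃ₐ[ℚ] Qbar, (∀ a ∈ L, σ a = a) → matMod p M.d n (galMat M σ) = 1 := by
  have : NeZero (p ^ n) := ⟨pow_ne_zero n (Fact.out : p.Prime).ne_zero⟩
  let pts : Fin M.d → JZero N := fun j => ((M.e n).symm (Pi.single j 1) : Jtors N (p ^ n))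
  choose L hL hfix using fun j => h (pts j)
  refine ⟨⨆ j, L j, ?_, fun σ hσ => ?_⟩
  · have := fun j => hL j
    exact IntermediateField.finiteDimensional_iSup_of_finite
  · refine Matrix.ext_of_mulVec_single fun j => ?_
    have hj : (Pi.single j 1 : Fin M.d → ZMod (p ^ n)) =
        M.e n ((M.e n).symm (Pi.single j 1)) := ((M.e n).apply_symm_apply _).symm
    rw [one_mulVec, matMod_galMat, hj, levelMat_mulVec]
    congr 1
    exact Subtype.ext (hfix j σ fun a ha => hσ a (le_iSup L j ha))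

end Fermat.Agent.EigenRep

end
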