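import Fermat.Agent.EigenRep.AntiInvolution
import Mathlib.RepresentationTheory.AlgebraRepresentation.Basic
import Mathlib.LinearAlgebra.Charpoly.ToMatrix
import Mathlib.LinearAlgebra.Matrix.ToLin
import Mathlib.LinearAlgebra.FiniteDimensional.Lemmas

/-!
# Representations satisfying a quadratic relation

If every `g` satisfies `ρ(g)² - t(g) ρ(g) + ε(g) = 0` with `ε` a character, then over an
algebraically closed field a representation contains either a stable line or a stable plane
on which the characteristic polynomial of `g` is `X² - t(g) X + ε(g)`.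
-/

set_option autoImplicit false

namespace Fermat.Agent.EigenRep

open Module Polynomial

variable {G : Type*} [Group G] {K : Type*} [Field K]

section Irreducible

variable {W : Type*} [AddCommGroup W] [Module K W]

/-- The only stable submodules are trivial. -/
def IsIrr (ρ : G →* Module.End K W) : Prop :=
  ∀ U : Submodule K W, (∀ g, ∀ x ∈ U, ρ g x ∈ U) → U = ⊥ ∨ U = ⊤

/-- Burnside: an irreducible representation over an algebraically closed field spans `End`. -/
theorem span_range_eq_top [IsAlgClosed K] [FiniteDimensional K W] [Nontrivial W]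
    (ρ : G →* Module.End K W) (hρ : IsIrr ρ) :
    Submodule.span K (Set.range ρ) = ⊤ := by
  let A : Subalgebra K (Module.End K W) := Algebra.adjoin K (Set.range ρ)
  have hsimple : IsSimpleModule A W := by
    refine { eq_bot_or_eq_top := fun U => ?_ }
    rcases hρ (U.restrictScalars K) (fun g x hx =>
      U.smul_mem (⟨ρ g, Algebra.subset_adjoin ⟨g, rfl⟩⟩ : A) hx) with h | h
    · exact Or.inl ((Submodule.restrictScalars_eq_bot_iff _ _ _).mp h)
    · exact Or.inr ((Submodule.restrictScalars_eq_top_iff _ _ _).mp h)
  have hscal := (IsSimpleModule.algebraMap_end_bijective_of_isAlgClosed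
    (A := A) (V := W) K).2
  have : Module.Finite (Module.End A W) W :=
    Module.Finite.of_restrictScalars_finite K _ _
  have hA : A = ⊤ := by
    refine eq_top_iff.mpr fun f _ => ?_
    let F : Module.End (Module.End A W) W :=
      { toFun := f
        map_add' := map_add f
        map_smul' := fun φ w => by
          obtain ⟨c, rfl⟩ := hscal φ
          simp }
    obtain ⟨a, ha⟩ := Module.Finite.toModuleEnd_moduleEnd_surjective (R := A) (M := W) F
    have : (a : Module.End K W) = f := LinearMap.ext fun w => congr($ha w)
    exact this ▸ a.2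
  have h := congrArg Subalgebra.toSubmodule hA
  rw [Algebra.adjoin_eq_span, ← MonoidHom.coe_mrange ρ, Submonoid.closure_eq] at h
  simpa using h

variable {ρ : G →* Module.End K W} {ε : G →* Kˣ} {t : G → K}

theorem relation_inv
    (h : ∀ g, ρ g * ρ g - t g • ρ g + (ε g : K) • 1 = 0) (g : G) :
    ρ g + (ε g : K) • ρ g⁻¹ = t g • 1 := by
  have hg : ρ g * ρ g⁻¹ = 1 := by rw [← map_mul, mul_inv_cancel, map_one]
  have h' := congrArg (· * ρ g⁻¹) (h g)
  simp only [add_mul, sub_mul, mul_assoc, hg, mul_one, smul_mul_assoc, one_mul, zero_mul] at h'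
  linear_combination (norm := module) h'

/-- The trace functional attached to a quadratic relation. -/
theorem exists_functional [FiniteDimensional K W]
    (hspan : Submodule.span K (Set.range ρ) = ⊤) (hdim : 2 ≤ finrank K W)
    (h : ∀ g, ρ g * ρ g - t g • ρ g + (ε g : K) • 1 = 0) :
    ∃ τ : Module.End K W →ₗ[K] K, (∀ g, τ (ρ g) = t g) ∧
      ∀ x y, τ (x * y) • (1 : Module.End K W) - x * y = (τ y • 1 - y) * (τ x • 1 - x) := by
  have : Nontrivial W := Module.nontrivial_of_finrank_pos (R := K) (by omega)
  have hrel := relation_inv h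
  let P : (G →₀ K) →ₗ[K] Module.End K W := Finsupp.linearCombination K ρ
  let T : (G →₀ K) →ₗ[K] K := Finsupp.linearCombination K t
  let st : G → Module.End K W := fun g => (ε g : K) • ρ g⁻¹
  let S : (G →₀ K) →ₗ[K] Module.End K W := Finsupp.linearCombination K st
  have hSPT : ∀ c, P c + S c = T c • 1 := by
    intro c
    induction c using Finsupp.induction_linear with
    | zero => simp
    | add c d hc hd => rw [map_add, map_add, map_add, add_smul, ← hc, ← hd]; abel
    | single g a =>
        simp only [P, S, T, st, Finsupp.linearCombination_single, smul_eq_mul]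
        rw [← smul_add, hrel g, smul_smul]
  have hst : ∀ g k, st (g * k) = st k * st g := by
    intro g k
    simp only [st, map_mul, Units.val_mul, mul_inv_rev, smul_mul_assoc, mul_smul_comm, smul_smul]
  have hP : Function.Surjective P := by
    rw [← LinearMap.range_eq_top, Finsupp.range_linearCombination, hspan]
  have hker : ∀ c, P c = 0 → T c = 0 := by
    intro c hc
    by_contra hT
    have hscalar : ∀ g, ∃ a : K, st g = a • 1 := by
      intro g
      have hPg : P (Finsupp.mapDomain (g * ·) c) = ρ g * P c := by
        rw [← LinearMap.mulLeft_apply (R := K)]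
        simp [P, Finsupp.linearCombination_apply, Finsupp.sum_mapDomain_index, add_smul, map_finsuppSum]
      have hSg : S (Finsupp.mapDomain (g * ·) c) = S c * st g := by
        rw [← LinearMap.mulRight_apply (R := K)]
        simp [S, Finsupp.linearCombination_apply, Finsupp.sum_mapDomain_index, add_smul, map_finsuppSum,
          hst]
      have h1 := hSPT (Finsupp.mapDomain (g * ·) c)
      have h2 := hSPT c
      rw [hPg, hc, mul_zero, zero_add, hSg] at h1
      rw [hc, zero_add] at h2
      rw [h2, smul_mul_assoc, one_mul] at h1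
      refine ⟨(T c)⁻¹ * T (Finsupp.mapDomain (g * ·) c), ?_⟩
      rw [← smul_smul, ← h1, smul_smul, inv_mul_cancel₀ hT, one_smul]
    have hle : Submodule.span K (Set.range ρ) ≤ Submodule.span K {1} := by
      rw [Submodule.span_le]
      rintro _ ⟨g, rfl⟩
      obtain ⟨a, ha⟩ := hscalar g⁻¹
      refine Submodule.mem_span_singleton.mpr ⟨((ε g⁻¹)⁻¹ : Kˣ) * a, ?_⟩
      simp only [st, inv_inv] at ha
      rw [← smul_smul, ← ha, smul_smul, ← Units.val_mul, inv_mul_cancel, Units.val_one, one_smul]
    have := Submodule.finrank_mono hle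
    rw [hspan, finrank_top, finrank_span_singleton one_ne_zero, Module.finrank_linearMap] at this
    nlinarith
  obtain ⟨sec, hsec⟩ := P.exists_rightInverse_of_surjective (LinearMap.range_eq_top.mpr hP)
  have hτP : ∀ c, T (sec (P c)) = T c := fun c => sub_eq_zero.mp <| by
    rw [← map_sub]
    refine hker _ ?_
    rw [map_sub, sub_eq_zero]
    exact LinearMap.congr_fun hsec (P c)
  have hτ : ∀ g, T.comp sec (ρ g) = t g := fun g => by
    have := hτP (Finsupp.single g 1)
    simpa [P, T] using this
  refine ⟨T.comp sec, hτ, fun x y => ?_⟩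
  set τ := T.comp sec
  have hbase : ∀ g, τ (ρ g) • (1 : Module.End K W) - ρ g = st g := fun g => by
    rw [hτ g, ← hrel g]; simp [st]
  have hx : x ∈ Submodule.span K (Set.range ρ) := hspan ▸ Submodule.mem_top
  have hy : y ∈ Submodule.span K (Set.range ρ) := hspan ▸ Submodule.mem_top
  induction hx using Submodule.span_induction with
  | zero => simp
  | add x₁ x₂ _ _ h₁ h₂ =>
      simp only [add_mul, map_add, add_smul]
      linear_combination (norm := noncomm_ring) h₁ + h₂
  | smul a x _ hx =>
      simp only [smul_mul_assoc, map_smul, smul_eq_mul, ← smul_smul, ← smul_sub, mul_smul_comm, hx]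
  | mem x hx =>
      obtain ⟨g, rfl⟩ := hx
      induction hy using Submodule.span_induction with
      | zero => simp
      | add y₁ y₂ _ _ h₁ h₂ =>
          simp only [mul_add, map_add, add_smul]
          linear_combination (norm := (noncomm_ring; module)) h₁ + h₂
      | smul a y _ hy =>
          simp only [mul_smul_comm, map_smul, smul_eq_mul, ← smul_smul, ← smul_sub, smul_mul_assoc,
            hy]
      | mem y hy =>
          obtain ⟨k, rfl⟩ := hy
          rw [← map_mul, hbase, hbase, hbase, hst]

theorem finrank_le_two_and_charpoly [IsAlgClosed K] [FiniteDimensional K W] [Nontrivial W]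
    (hρ : IsIrr ρ) (hdim : 2 ≤ finrank K W)
    (h : ∀ g, ρ g * ρ g - t g • ρ g + (ε g : K) • 1 = 0) :
    finrank K W = 2 ∧
      ∀ g, LinearMap.charpoly (ρ g) = X ^ 2 - C (t g) * X + C (ε g : K) := by
  obtain ⟨τ, hτ, hanti⟩ := exists_functional (span_range_eq_top ρ hρ) hdim h
  let b := Module.finBasis K W
  let e := LinearMap.toMatrixAlgEquiv b
  let τ' := τ.comp e.symm.toLinearMap
  have hanti' : IsAntiMul τ' := fun x y => by
    obtain ⟨x, rfl⟩ := e.surjective x
    obtain ⟨y, rfl⟩ := e.surjective y
    have := congrArg e (hanti x y)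
    simp only [map_sub, map_mul, map_smul, map_one] at this
    simpa [τ', ← map_mul] using this
  have h2 : finrank K W = 2 := le_antisymm hanti'.le_two hdim
  refine ⟨h2, fun g => ?_⟩
  let b2 := Module.finBasisOfFinrankEq K W h2
  let e2 := LinearMap.toMatrixAlgEquiv b2
  have hanti2 : IsAntiMul (τ.comp e2.symm.toLinearMap) := fun x y => by
    obtain ⟨x, rfl⟩ := e2.surjective x
    obtain ⟨y, rfl⟩ := e2.surjective y
    have := congrArg e2 (hanti x y)
    simp only [map_sub, map_mul, map_smul, map_one] at this
    simpa [← map_mul] using this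
  have htr : (e2 (ρ g)).trace = t g := by
    rw [← hanti2.eq_trace]; simp [hτ]
  have hrel := congrArg e2 (h g)
  simp only [map_add, map_sub, map_mul, map_smul, map_one, map_zero, ← htr] at hrel
  rw [← LinearMap.charpoly_toMatrix (ρ g) b2]
  have := charpoly_eq_of_relation hrel
  rw [htr] at this
  exact this

end Irreducible

/-- In a nonzero representation with a quadratic relation there is a stable line, or a stable
plane with the expected characteristic polynomials. -/
theorem exists_line_or_plane [IsAlgClosed K] {V : Type*} [AddCommGroup V] [Module K V]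
    [FiniteDimensional K V] [Nontrivial V] (ρ : G →* Module.End K V) (ε : G →* Kˣ) (t : G → K)
    (h : ∀ g, ρ g * ρ g - t g • ρ g + (ε g : K) • 1 = 0) :
    (∃ v : V, v ≠ 0 ∧ ∀ g, ∃ c : K, ρ g v = c • v) ∨
    (∃ W : Submodule K V, finrank K W = 2 ∧ ∃ hW : ∀ g, ∀ x ∈ W, ρ g x ∈ W,
      ∀ g, LinearMap.charpoly ((ρ g).restrict (hW g)) = X ^ 2 - C (t g) * X + C (ε g : K)) := by
  classical
  let P : ℕ → Prop := fun m => ∃ W : Submodule K V, W ≠ ⊥ ∧ finrank K W = m ∧
    ∀ g, ∀ x ∈ W, ρ g x ∈ W
  have hP : ∃ m, P m := ⟨_, ⊤, top_ne_bot, rfl, fun _ _ _ => trivial⟩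
  obtain ⟨W, hW0, hWm, hW⟩ := Nat.find_spec hP
  have : Nontrivial W := Submodule.nontrivial_iff_ne_bot.mpr hW0
  by_cases h1 : finrank K W = 1
  · left
    obtain ⟨v, hv, hspan⟩ := finrank_eq_one_iff'.mp h1
    refine ⟨v, by simpa using hv, fun g => ?_⟩
    obtain ⟨c, hc⟩ := hspan ⟨ρ g v, hW g v v.2⟩
    exact ⟨c, (congrArg Subtype.val hc).symm⟩
  · right
    let ρW : G →* Module.End K W :=
      { toFun := fun g => (ρ g).restrict (hW g)
        map_one' := by ext x; simp
        map_mul' := fun g k => by ext x; simp }
    have hirr : IsIrr ρW := by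
      intro U hU
      by_contra hne
      push Not at hne
      have hstab : ∀ g, ∀ x ∈ U.map W.subtype, ρ g x ∈ U.map W.subtype := by
        rintro g _ ⟨x, hx, rfl⟩
        exact ⟨ρW g x, hU g x hx, rfl⟩
      have hlt : finrank K (U.map W.subtype) < Nat.find hP := by
        rw [Submodule.finrank_map_subtype_eq, ← hWm]
        exact Submodule.finrank_lt hne.2
      refine Nat.find_min hP hlt ⟨_, ?_, rfl, hstab⟩
      intro h; exact hne.1 (Submodule.map_injective_of_injective W.injective_subtype (by simpa using h))
    have hdim : 2 ≤ finrank K W := by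
      have : 0 < finrank K W := Module.finrank_pos
      omega
    have hrel : ∀ g, ρW g * ρW g - t g • ρW g + (ε g : K) • 1 = 0 := fun g => by
      ext x
      exact congr($(h g) (x : V))
    obtain ⟨h2, hcp⟩ := finrank_le_two_and_charpoly hirr hdim hrel
    exact ⟨W, h2, hW, hcp⟩

end Fermat.Agent.EigenRep
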